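/-
ALPHA-KEY (helper8), part 2: sections of a Gauss lattice over a function algebra.

`T ≤ (c → A)` an `A`-algebra of `A`-valued functions on a finite set `c` ("cluster algebra").
A SECTION of the lattice `⊕ A eₛ` (an orthonormal frame `Fr`) over `T` is a coordinate vector
`t : Fin N → T`; it has a value `Fr.evz T z t ∈ F` at every point `z ∈ c` and a value
`Fr.evc T z₀ t ∈ F̄` at the closed point.  Multiplication of sections via structure constants.
-/
import Fermat.Agent.Lib.Alpha.Key.Frame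
import Fermat.Agent.Lib.Alpha.CRank.Cluster

set_option autoImplicit false
set_option linter.style.haveILetI false
set_option linter.unusedSectionVars false

namespace Fermat.Agent.Alpha

open Fermat.Agent.T1 Matrix

variable {K F k Fb : Type*} [Field K] [Field F] [Algebra K F] [Field k] [Field Fb] [Algebra k Fb]
variable {d : TbBase K F k Fb} {c : Type*} [Fintype c] [DecidableEq c]
variable (T : Subalgebra ↥d.A (c → ↥d.A))

/-- the `K`-valued point `z` of `T` -/
def alpxEvK (z : c) : ↥T →+* K := (algebraMap ↥d.A K).comp (alpcEv T z)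

/-- the closed point of `T` (through `z₀`) -/
def alpxRho (z₀ : c) : ↥T →+* k := d.resA.comp (alpcEv T z₀)

theorem alpxEvK_apply (z : c) (β : ↥T) : alpxEvK T z β = (((β : c → ↥d.A) z : ↥d.A) : K) := rfl

theorem alpxRho_apply (z₀ : c) (β : ↥T) : alpxRho T z₀ β = d.resA ((β : c → ↥d.A) z₀) := rfl

theorem alpxEvK_algebraMap (z : c) (a : ↥d.A) : alpxEvK T z (algebraMap ↥d.A ↥T a) = (a : K) := rfl

theorem alpxRho_algebraMap (z₀ : c) (a : ↥d.A) :
    alpxRho T z₀ (algebraMap ↥d.A ↥T a) = d.resA a := rfl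

theorem alpxRho_surjective (z₀ : c) : Function.Surjective (alpxRho T z₀) := fun t => by
  obtain ⟨a, rfl⟩ := d.resA_surj t
  exact ⟨algebraMap ↥d.A ↥T a, rfl⟩

theorem alpxEvK_jointly_injective (β : ↥T) (h : ∀ z, alpxEvK T z β = 0) : β = 0 := by
  apply alpcEv_jointly_injective T β
  intro z
  have := h z
  rw [alpxEvK_apply] at this
  exact Subtype.ext this

/-- `T` has a single cluster -/
def AlpxOneCluster : Prop :=
  ∀ β ∈ T, ∀ z z' : c, β z - β z' ∈ IsLocalRing.maximalIdeal ↥d.A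

variable {T}

theorem AlpxOneCluster.rho_eq (h : AlpxOneCluster T) (z z' : c) (β : ↥T) :
    alpxRho T z β = alpxRho T z' β := by
  rw [alpxRho_apply, alpxRho_apply, ← sub_eq_zero, ← map_sub, d.resA_eq_zero_iff]
  exact h β β.2 z z'

/-- over a single cluster, elements with nonzero residue are units -/
theorem AlpxOneCluster.isUnit (h : AlpxOneCluster T) (z₀ : c) (β : ↥T)
    (hβ : alpxRho T z₀ β ≠ 0) : IsUnit β := by
  apply alpc_isUnit_of_residue_ne_zero T h z₀ β
  intro h0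
  apply hβ
  rw [alpcRho_apply, IsLocalRing.residue_eq_zero_iff] at h0
  rw [alpxRho_apply, d.resA_eq_zero_iff]
  exact h0

/-- values of units are nonzero -/
theorem alpxEvK_ne_zero_of_isUnit {β : ↥T} (hβ : IsUnit β) (z : c) : alpxEvK T z β ≠ 0 :=
  (hβ.map (alpxEvK T z)).ne_zero

variable (T)

namespace AlpxFrame

variable {N : ℕ} (Fr : AlpxFrame d N)

/-- the value of a section at the point `z` -/
def evz (z : c) (t : Fin N → ↥T) : F := Fr.comb fun s => alpxEvK T z (t s)

/-- the value of a section at the closed point -/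
def evc (z₀ : c) (t : Fin N → ↥T) : Fb := Fr.combB fun s => alpxRho T z₀ (t s)

theorem evz_mem_spanK (z : c) (t : Fin N → ↥T) : Fr.evz T z t ∈ Fr.spanK := Fr.comb_mem_spanK _

theorem evc_mem_spanB (z₀ : c) (t : Fin N → ↥T) : Fr.evc T z₀ t ∈ Fr.spanB := Fr.combB_mem_spanB _

theorem evz_mem_Ov (z : c) (t : Fin N → ↥T) : Fr.evz T z t ∈ d.Ov :=
  Fr.comb_mem_Ov fun s => ((t s : ↥T) : c → ↥d.A) z

theorem res_evz (z₀ : c) (t : Fin N → ↥T) :
    d.res ⟨Fr.evz T z₀ t, Fr.evz_mem_Ov T z₀ t⟩ = Fr.evc T z₀ t :=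
  Fr.res_comb fun s => ((t s : ↥T) : c → ↥d.A) z₀

theorem evz_add (z : c) (t t' : Fin N → ↥T) :
    Fr.evz T z (t + t') = Fr.evz T z t + Fr.evz T z t' := by
  rw [evz, evz, evz, ← Fr.comb_add]
  rfl

theorem evz_smul (z : c) (b : ↥T) (t : Fin N → ↥T) :
    Fr.evz T z (b • t) = alpxEvK T z b • Fr.evz T z t := by
  rw [evz, evz, ← Fr.comb_smul]
  rfl

theorem evz_zero (z : c) : Fr.evz T z 0 = 0 := by
  rw [evz]
  exact Fr.comb_zero

theorem evz_neg (z : c) (t : Fin N → ↥T) : Fr.evz T z (-t) = -Fr.evz T z t := by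
  have h := Fr.evz_smul T z (-1 : ↥T) t
  rw [map_neg, map_one, neg_one_smul] at h
  rw [← h]
  congr 1
  funext s
  simp only [Pi.neg_apply, Pi.smul_apply, smul_eq_mul]
  ring

theorem evz_sub (z : c) (t t' : Fin N → ↥T) :
    Fr.evz T z (t - t') = Fr.evz T z t - Fr.evz T z t' := by
  rw [sub_eq_add_neg, evz_add, evz_neg, ← sub_eq_add_neg]

theorem evz_sum {ι : Type*} (S : Finset ι) (z : c) (t : ι → Fin N → ↥T) :
    Fr.evz T z (∑ i ∈ S, t i) = ∑ i ∈ S, Fr.evz T z (t i) := by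
  classical
  induction S using Finset.induction_on with
  | empty => simpa using Fr.evz_zero T z
  | insert a S ha ih => rw [Finset.sum_insert ha, Finset.sum_insert ha, evz_add, ih]

theorem evc_add (z₀ : c) (t t' : Fin N → ↥T) :
    Fr.evc T z₀ (t + t') = Fr.evc T z₀ t + Fr.evc T z₀ t' := by
  rw [evc, evc, evc, ← Fr.combB_add]
  congr 1
  funext s
  simp only [Pi.add_apply, map_add]

theorem evc_smul (z₀ : c) (b : ↥T) (t : Fin N → ↥T) :
    Fr.evc T z₀ (b • t) = alpxRho T z₀ b • Fr.evc T z₀ t := by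
  rw [evc, evc, ← Fr.combB_smul]
  congr 1
  funext s
  simp only [Pi.smul_apply, smul_eq_mul, map_mul]

/-- a section vanishing at every point is zero -/
theorem eq_zero_of_evz {t : Fin N → ↥T} (h : ∀ z, Fr.evz T z t = 0) : t = 0 := by
  funext s
  apply alpxEvK_jointly_injective T
  intro z
  have h1 := Fr.comb_injective (a₁ := fun s => alpxEvK T z (t s)) (a₂ := 0) (by
    rw [Fr.comb_zero]; exact h z)
  exact congrFun h1 s

/-- the constant section with coefficients `a` -/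
def const (a : Fin N → ↥d.A) : Fin N → ↥T := fun s => algebraMap ↥d.A ↥T (a s)

theorem evz_const (z : c) (a : Fin N → ↥d.A) :
    Fr.evz T z (const T a) = Fr.comb fun s => ((a s : ↥d.A) : K) := rfl

theorem evc_const (z₀ : c) (a : Fin N → ↥d.A) :
    Fr.evc T z₀ (const T a) = Fr.combB fun s => d.resA (a s) := rfl

/-- the basis sections -/
def unit (s₀ : Fin N) : Fin N → ↥T := Pi.single s₀ 1

theorem evz_unit (z : c) (s₀ : Fin N) : Fr.evz T z (unit T s₀) = Fr.e s₀ := by
  classical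
  rw [evz, comb, Finset.sum_eq_single s₀]
  · simp [unit]
  · intro s _ hs
    simp [unit, Pi.single_eq_of_ne hs]
  · intro h; exact absurd (Finset.mem_univ _) h

theorem evc_unit (z₀ : c) (s₀ : Fin N) : Fr.evc T z₀ (unit T s₀) = Fr.eb s₀ := by
  classical
  rw [evc, combB, Finset.sum_eq_single s₀]
  · simp [unit]
  · intro s _ hs
    simp [unit, Pi.single_eq_of_ne hs]
  · intro h; exact absurd (Finset.mem_univ _) h

/-! ### Matrices of families of sections -/

variable {ι : Type*} [Fintype ι]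

/-- the values at `z` of the columns of a matrix of sections span a space of dimension the rank of
the specialised matrix -/
theorem rank_map_evK [DecidableEq ι] (M : Matrix (Fin N) ι ↥T) (z : c) :
    (M.map (alpxEvK T z)).rank =
      Module.finrank K ↥(Submodule.span K (Set.range fun i => Fr.evz T z (M.col i))) := by
  rw [Matrix.rank_eq_finrank_span_cols]
  have hinj : Function.Injective Fr.combL := Fr.comb_injective
  have h1 : (Submodule.span K (Set.range (M.map (alpxEvK T z)).col)).map Fr.combL =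
      Submodule.span K (Set.range fun i => Fr.evz T z (M.col i)) := by
    rw [Submodule.map_span, ← Set.range_comp]
    rfl
  rw [← h1]
  exact (LinearEquiv.finrank_eq (Submodule.equivMapOfInjective Fr.combL hinj _))

/-- the same at the closed point -/
theorem rank_map_rho [DecidableEq ι] (M : Matrix (Fin N) ι ↥T) (z₀ : c) :
    (M.map (alpxRho T z₀)).rank =
      Module.finrank k ↥(Submodule.span k (Set.range fun i => Fr.evc T z₀ (M.col i))) := by
  rw [Matrix.rank_eq_finrank_span_cols]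
  have hinj : Function.Injective Fr.combBL := Fr.combB_injective
  have h1 : (Submodule.span k (Set.range (M.map (alpxRho T z₀)).col)).map Fr.combBL =
      Submodule.span k (Set.range fun i => Fr.evc T z₀ (M.col i)) := by
    rw [Submodule.map_span, ← Set.range_comp]
    rfl
  rw [← h1]
  exact (LinearEquiv.finrank_eq (Submodule.equivMapOfInjective Fr.combBL hinj _))

/-- value of `M.mulVec v` at `z` -/
theorem evz_mulVec (M : Matrix (Fin N) ι ↥T) (v : ι → ↥T) (z : c) :
    Fr.evz T z (M.mulVec v) = ∑ i, alpxEvK T z (v i) • Fr.evz T z (M.col i) := by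
  have h : M.mulVec v = ∑ i, v i • M.col i := by
    funext s
    simp [Matrix.mulVec, dotProduct, Finset.sum_apply, mul_comm]
  rw [h, evz_sum]
  exact Finset.sum_congr rfl fun i _ => Fr.evz_smul T z (v i) (M.col i)

end AlpxFrame

/-! ### Multiplication -/

/-- structure constants of a multiplication `Λ₁ × Λ₂ → Λ₃` of framed lattices -/
structure AlpxMul {N₁ N₂ N₃ : ℕ} (Fr₁ : AlpxFrame d N₁) (Fr₂ : AlpxFrame d N₂)
    (Fr₃ : AlpxFrame d N₃) where
  /-- the structure constants -/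
  γ : Fin N₁ → Fin N₂ → Fin N₃ → ↥d.A
  mul_eq : ∀ i j, Fr₁.e i * Fr₂.e j = Fr₃.comb fun p => ((γ i j p : ↥d.A) : K)

/-- structure constants exist as soon as the products lie in the span -/
theorem AlpxMul.exists {N₁ N₂ N₃ : ℕ} (Fr₁ : AlpxFrame d N₁) (Fr₂ : AlpxFrame d N₂)
    (Fr₃ : AlpxFrame d N₃) (h : ∀ i j, Fr₁.e i * Fr₂.e j ∈ Fr₃.spanK) :
    Nonempty (AlpxMul Fr₁ Fr₂ Fr₃) := by
  have h1 : ∀ i j, ∃ a : Fin N₃ → ↥d.A,
      Fr₁.e i * Fr₂.e j = Fr₃.comb fun p => ((a p : ↥d.A) : K) := fun i j =>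
    Fr₃.mem_ball_iff.mp ⟨h i j, d.Ov.mul_mem (Fr₁.mem i) (Fr₂.mem j)⟩
  choose γ hγ using h1
  exact ⟨⟨γ, hγ⟩⟩

namespace AlpxMul

variable {N₁ N₂ N₃ : ℕ} {Fr₁ : AlpxFrame d N₁} {Fr₂ : AlpxFrame d N₂} {Fr₃ : AlpxFrame d N₃}
  (μ : AlpxMul Fr₁ Fr₂ Fr₃)

/-- the product of two sections -/
def mulT (u : Fin N₁ → ↥T) (v : Fin N₂ → ↥T) : Fin N₃ → ↥T := fun p =>
  ∑ i, ∑ j, algebraMap ↥d.A ↥T (μ.γ i j p) * (u i * v j)

theorem evz_mulT (z : c) (u : Fin N₁ → ↥T) (v : Fin N₂ → ↥T) :
    Fr₃.evz T z (μ.mulT T u v) = Fr₁.evz T z u * Fr₂.evz T z v := by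
  simp only [AlpxFrame.evz, AlpxFrame.comb, mulT, map_sum, map_mul, alpxEvK_algebraMap]
  rw [Finset.sum_mul_sum]
  simp only [Finset.sum_smul]
  rw [Finset.sum_comm]
  refine Finset.sum_congr rfl fun i _ => ?_
  rw [Finset.sum_comm]
  refine Finset.sum_congr rfl fun j _ => ?_
  rw [smul_mul_smul_comm, μ.mul_eq i j, AlpxFrame.comb, Finset.smul_sum]
  refine Finset.sum_congr rfl fun p _ => ?_
  rw [smul_smul, mul_comm]

theorem evc_mulT (z₀ : c) (u : Fin N₁ → ↥T) (v : Fin N₂ → ↥T) :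
    Fr₃.evc T z₀ (μ.mulT T u v) = Fr₁.evc T z₀ u * Fr₂.evc T z₀ v := by
  rw [← Fr₃.res_evz, ← Fr₁.res_evz, ← Fr₂.res_evz, ← d.res_mul']
  exact d.res_congr _ (μ.evz_mulT T z₀ u v)

/-- the matrix of `u ↦ u * v` -/
def mulMatR (v : Fin N₂ → ↥T) : Matrix (Fin N₃) (Fin N₁) ↥T := fun p i =>
  ∑ j, algebraMap ↥d.A ↥T (μ.γ i j p) * v j

/-- the matrix of `v ↦ u * v` -/
def mulMatL (u : Fin N₁ → ↥T) : Matrix (Fin N₃) (Fin N₂) ↥T := fun p j =>
  ∑ i, algebraMap ↥d.A ↥T (μ.γ i j p) * u i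

theorem mulMatR_mulVec (u : Fin N₁ → ↥T) (v : Fin N₂ → ↥T) :
    (μ.mulMatR T v).mulVec u = μ.mulT T u v := by
  funext p
  simp only [Matrix.mulVec, dotProduct, mulMatR, mulT, Finset.sum_mul]
  refine Finset.sum_congr rfl fun i _ => Finset.sum_congr rfl fun j _ => ?_
  ring

theorem mulMatL_mulVec (u : Fin N₁ → ↥T) (v : Fin N₂ → ↥T) :
    (μ.mulMatL T u).mulVec v = μ.mulT T u v := by
  funext p
  simp only [Matrix.mulVec, dotProduct, mulMatL, mulT, Finset.sum_mul]
  rw [Finset.sum_comm]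
  refine Finset.sum_congr rfl fun i _ => Finset.sum_congr rfl fun j _ => ?_
  ring

end AlpxMul

end Fermat.Agent.Alpha
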