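/-
ALPHA-KEY (helper8), part 3: the notion of a CHART (definitions only).

Setting: good reduction `hg : T3aGood d ℓ x` of a function field `F / K` to `F̄ / k`.
A chart for a finite abelian group `V` consists of
* a place `inf` and a degree `n ≥ 6 g + 2`;
* an effective divisor `E0` of degree `g` and effective divisors `D x` (`x : V`) of degree `g` with
  `D (x + y) + E0 ∼ D x + D y` (so `x ↦ [D x - E0]` is a homomorphism to `Pic⁰`), `D` injective;
* (G1) `ℓ̄ (red (D x)) = 1` for all `x`;
* an orthonormal frame `e` of `L(n·inf)` (Gauss-integral functions whose residues are a basis of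
  `L̄(n·red inf)`), and `g` integral vectors `c i` (in coordinates with respect to `e`);
* (G2) for every `x`: `L̄(n·red inf) = L̄(n·red inf - red (D x)) ⊕ span c̄`.
-/
import Fermat.Agent.Lib.Alpha.Key.Section
import Fermat.Agent.Lib.Alpha.Red.Basic
import Fermat.Agent.Lib.Alpha.Red.Basis
import Fermat.Agent.Lib.Alpha.KM.HomKer

set_option autoImplicit false
set_option linter.style.haveILetI false
set_option linter.unusedSectionVars false

namespace Fermat.Agent.Alpha

open AlgebraicCurve IntermediateField Fermat.Agent.Curve Fermat.Agent.CurveP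
  Fermat.Agent.Curve.PlaceAux Fermat.Agent.T1 Fermat.Agent.T3 RRAux

variable {K F k Fb : Type*} [Field K] [Field F] [Algebra K F] [Field k] [Field Fb] [Algebra k Fb]
variable [IsAlgClosed K] [IsAlgClosed k]
variable {d : TbBase K F k Fb} {ℓ : ℕ} {x : F}

/-- the divisor `m · P` -/
noncomputable def alpxPt (P : Place K F) (m : ℕ) : Divisor K F := Finsupp.single P (m : ℤ)

/-- a chart (see the header) -/
structure AlpxChart (hg : T3aGood d ℓ x) (V : Type*) [AddCommGroup V] where
  /-- the base place -/
  inf : Place K F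
  /-- the degree -/
  n : ℕ
  hn : 6 * genusR K F + 2 ≤ n
  /-- the base divisor -/
  E0 : Divisor K F
  hE0 : 0 ≤ E0
  hE0deg : Divisor.degree E0 = genusR K F
  /-- the divisors of the points -/
  D : V → Divisor K F
  hD : ∀ v, 0 ≤ D v
  hDdeg : ∀ v, Divisor.degree (D v) = genusR K F
  hDinj : Function.Injective D
  hadd : ∀ v w, ∃ h : F, h ≠ 0 ∧ ∀ P : Place K F, P.ord h = (D (v + w) + E0 - D v - D w) P
  /-- (G1) -/
  hG1 : ∀ v, ell (alprRed hg (D v)) = 1
  /-- the size of the frame, `n + 1 - g` -/
  N : ℕ
  /-- the frame of `L(n·inf)` -/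
  Fr : AlpxFrame d N
  hFr : Fr.spanK = riemannRochSpace (alpxPt inf n)
  /-- the complement vectors, in coordinates -/
  c : Fin (genusR K F) → Fin N → ↥d.A
  /-- (G2) -/
  hG2a : ∀ v (γ : Fin (genusR K F) → k),
    (∑ i, γ i • Fr.combB (fun s => d.resA (c i s))) ∈
      riemannRochSpace (alprRed hg (alpxPt inf n - D v)) → γ = 0
  hG2b : ∀ v, Fr.spanB ≤ riemannRochSpace (alprRed hg (alpxPt inf n - D v)) ⊔
    Submodule.span k (Set.range fun i => Fr.combB (fun s => d.resA (c i s)))

namespace AlpxChart

variable {hg : T3aGood d ℓ x} {V : Type*} [AddCommGroup V] (ch : AlpxChart hg V)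

/-- the complement functions `c i ∈ L(n·inf) ∩ 𝒪` -/
noncomputable def cF (i : Fin (genusR K F)) : F := ch.Fr.comb fun s => ((ch.c i s : ↥d.A) : K)

/-- their residues -/
noncomputable def cB (i : Fin (genusR K F)) : Fb := ch.Fr.combB fun s => d.resA (ch.c i s)

/-- `L(n·inf - D v)` -/
noncomputable def W (v : V) : Submodule K F := riemannRochSpace (alpxPt ch.inf ch.n - ch.D v)

/-- `L̄(n·red inf - red (D v))` -/
noncomputable def Wb (v : V) : Submodule k Fb :=
  riemannRochSpace (alprRed hg (alpxPt ch.inf ch.n - ch.D v))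

end AlpxChart

end Fermat.Agent.Alpha
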