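/-
ALPHA-KEY K2 (helper4): the chart functions `m j i : V → A` of a chart.

For `v : V` the lattice `ball L(n·inf)` decomposes as `ball (W v) ⊕ ⊕ A cF_i` (Nakayama from (G2));
`m j i v` is the `cF_i`-coordinate of the frame vector `e_j`:
`e_j - ∑ i, m j i v • cF_i ∈ W v = L(n·inf - D v)`.
They are `A`-valued (`m_mem`), characterised by `m_spec`/`m_unique`, the vectors
`w_j = e_j - ∑ m_ji cF_i` span `W v` (`span_w`), their residues span `W̄ v` (`span_wb`),
and the `m j i` separate the points of `V` (`m_sep`).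
-/
import Fermat.Agent.Lib.Alpha.Key.Chart

set_option autoImplicit false
set_option linter.style.haveILetI false
set_option linter.unusedSectionVars false

namespace Fermat.Agent.Alpha

open AlgebraicCurve IntermediateField Fermat.Agent.Curve Fermat.Agent.CurveP
  Fermat.Agent.Curve.PlaceAux Fermat.Agent.T1 Fermat.Agent.T3 RRAux

variable {K F k Fb : Type*} [Field K] [Field F] [Algebra K F] [Field k] [Field Fb] [Algebra k Fb]
variable [IsAlgClosed K] [IsAlgClosed k]
variable {d : TbBase K F k Fb} {ℓ : ℕ} {x : F}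

namespace AlpxChart

variable {hg : T3aGood d ℓ x} {V : Type*} [AddCommGroup V] (ch : AlpxChart hg V)

/-- `deg (n·inf) = n` -/
theorem degree_pt : Divisor.degree (alpxPt ch.inf ch.n) = (ch.n : ℤ) := by
  haveI := hg.sep
  exact alpk_degree_single hg.gen ch.inf (ch.n : ℤ)

/-- `deg (n·inf - D v) = n - g` -/
theorem degree_sub (v : V) :
    Divisor.degree (alpxPt ch.inf ch.n - ch.D v) = (ch.n : ℤ) - genusR K F := by
  rw [map_sub, ch.degree_pt, ch.hDdeg v]

theorem hn' : 6 * (genusR K F : ℤ) + 2 ≤ (ch.n : ℤ) := by exact_mod_cast ch.hn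

/-- `L(n·inf)` -/
noncomputable def U : Submodule K F := riemannRochSpace (alpxPt ch.inf ch.n)

theorem spanK_eq_U : ch.Fr.spanK = ch.U := ch.hFr

theorem W_le_U (v : V) : ch.W v ≤ ch.U := by
  apply riemannRochSpace_mono
  exact sub_le_self _ (ch.hD v)

instance finiteDimensional_U : FiniteDimensional K ↥ch.U := alpr_finiteDimensional hg _

instance finiteDimensional_W (v : V) : FiniteDimensional K ↥(ch.W v) := alpr_finiteDimensional hg _

instance finiteDimensional_Wb (v : V) : FiniteDimensional k ↥(ch.Wb v) :=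
  alpr_finiteDimensional_bar hg _

/-- the size of the frame -/
theorem N_eq : (ch.N : ℤ) = ch.n + 1 - genusR K F := by
  haveI := hg.sep
  have h1 : Module.finrank K ↥ch.Fr.spanK = ch.N := ch.Fr.finrank_spanK
  have h2 : (ell (alpxPt ch.inf ch.n) : ℤ) = Divisor.degree (alpxPt ch.inf ch.n) + 1 -
      genusR K F := alpk_ell_eq hg.gen (by rw [ch.degree_pt]; have := ch.hn'; omega)
  rw [ch.degree_pt] at h2
  rw [← h2, ← h1, ch.hFr]
  rfl

/-- the dimension of `W v` -/
theorem finrank_W (v : V) : Module.finrank K ↥(ch.W v) + genusR K F = ch.N := by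
  haveI := hg.sep
  have h2 : (ell (alpxPt ch.inf ch.n - ch.D v) : ℤ) =
      Divisor.degree (alpxPt ch.inf ch.n - ch.D v) + 1 - genusR K F :=
    alpk_ell_eq hg.gen (by rw [ch.degree_sub]; have := ch.hn'; omega)
  rw [ch.degree_sub] at h2
  have h3 := ch.N_eq
  have h4 : (Module.finrank K ↥(ch.W v) : ℤ) = (ell (alpxPt ch.inf ch.n - ch.D v) : ℤ) := rfl
  omega

/-- reduction of `W v` -/
theorem resBall_W (v : V) : d.resBall (ch.W v) = ch.Wb v :=
  alpr_resBall_eq hg (by rw [ch.degree_sub]; have := ch.hn'; omega)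

/-- the dimension of `W̄ v` -/
theorem finrank_Wb (v : V) : Module.finrank k ↥(ch.Wb v) + genusR K F = ch.N := by
  rw [← ch.resBall_W v, alpr_finrank_resBall d (ch.W v)]
  exact ch.finrank_W v

theorem resBall_U : d.resBall ch.U = ch.Fr.spanB := by
  rw [← ch.spanK_eq_U]
  exact ch.Fr.resBall_spanK

theorem Wb_le_spanB (v : V) : ch.Wb v ≤ ch.Fr.spanB := by
  rw [← ch.resBall_W v, ← ch.resBall_U]
  exact d.resBall_mono (ch.W_le_U v)

theorem cF_mem_Ov (i : Fin (genusR K F)) : ch.cF i ∈ d.Ov := ch.Fr.comb_mem_Ov (ch.c i)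

theorem cF_mem_U (i : Fin (genusR K F)) : ch.cF i ∈ ch.U := by
  rw [← ch.spanK_eq_U]
  exact ch.Fr.comb_mem_spanK _

theorem cF_mem_ball (i : Fin (genusR K F)) : ch.cF i ∈ d.ball ch.U :=
  ⟨ch.cF_mem_U i, ch.cF_mem_Ov i⟩

theorem res_cF (i : Fin (genusR K F)) : d.res ⟨ch.cF i, ch.cF_mem_Ov i⟩ = ch.cB i :=
  ch.Fr.res_comb (ch.c i)

theorem e_mem_U (j : Fin ch.N) : ch.Fr.e j ∈ ch.U := by
  rw [← ch.spanK_eq_U]
  exact Submodule.subset_span ⟨j, rfl⟩

theorem e_mem_ball (j : Fin ch.N) : ch.Fr.e j ∈ d.ball ch.U := ⟨ch.e_mem_U j, ch.Fr.mem j⟩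

/-- existence of the chart coordinates -/
theorem exists_m (v : V) (j : Fin ch.N) :
    ∃ a : Fin (genusR K F) → ↥d.A,
      ch.Fr.e j - ∑ i, ((a i : ↥d.A) : K) • ch.cF i ∈ ch.W v := by
  have hsup : d.resBall ch.U ≤ d.resBall (ch.W v) ⊔
      Submodule.span k (Set.range fun i => d.res ⟨ch.cF i, (ch.cF_mem_ball i).2⟩) := by
    rw [ch.resBall_U, ch.resBall_W v]
    have h1 : (fun i => d.res ⟨ch.cF i, (ch.cF_mem_ball i).2⟩) =
        fun i => ch.Fr.combB (fun s => d.resA (ch.c i s)) := funext fun i => ch.res_cF i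
    rw [h1]
    exact ch.hG2b v
  obtain ⟨a, ha⟩ := alpr_ball_decomp d ch.U (ch.W v) (ch.W_le_U v) ch.cF ch.cF_mem_ball hsup
    (ch.e_mem_ball j)
  exact ⟨a, ha.1⟩

/-- **the chart functions** -/
noncomputable def m (j : Fin ch.N) (i : Fin (genusR K F)) (v : V) : K :=
  ((Classical.choose (ch.exists_m v j) i : ↥d.A) : K)

theorem m_mem (j : Fin ch.N) (i : Fin (genusR K F)) (v : V) : ch.m j i v ∈ d.A :=
  (Classical.choose (ch.exists_m v j) i).2

/-- the chart functions, with values in `A` -/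
noncomputable def mA (j : Fin ch.N) (i : Fin (genusR K F)) (v : V) : ↥d.A :=
  ⟨ch.m j i v, ch.m_mem j i v⟩

@[simp] theorem coe_mA (j : Fin ch.N) (i : Fin (genusR K F)) (v : V) :
    ((ch.mA j i v : ↥d.A) : K) = ch.m j i v := rfl

/-- the defining property of the chart functions -/
theorem m_spec (v : V) (j : Fin ch.N) :
    ch.Fr.e j - ∑ i, ch.m j i v • ch.cF i ∈ ch.W v :=
  Classical.choose_spec (ch.exists_m v j)

/-- the `cF i` are linearly independent modulo `W v` -/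
theorem cF_indep (v : V) (a : Fin (genusR K F) → K) (h : ∑ i, a i • ch.cF i ∈ ch.W v) : a = 0 := by
  refine alpr_indep_mod d (ch.W v) ch.cF ch.cF_mem_Ov (fun γ hγ => ?_) a h
  apply ch.hG2a v γ
  rw [ch.resBall_W v] at hγ
  have h1 : ∑ i, γ i • d.res ⟨ch.cF i, ch.cF_mem_Ov i⟩ =
      ∑ i, γ i • ch.Fr.combB (fun s => d.resA (ch.c i s)) :=
    Finset.sum_congr rfl fun i _ => by rw [ch.res_cF i]; rfl
  rw [← h1]
  exact hγ

/-- the `cB i` are linearly independent modulo `W̄ v` -/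
theorem cB_indep (v : V) (γ : Fin (genusR K F) → k) (h : ∑ i, γ i • ch.cB i ∈ ch.Wb v) : γ = 0 :=
  ch.hG2a v γ h

/-- uniqueness of the chart coordinates -/
theorem m_unique (v : V) (j : Fin ch.N) (a : Fin (genusR K F) → K)
    (h : ch.Fr.e j - ∑ i, a i • ch.cF i ∈ ch.W v) : ∀ i, a i = ch.m j i v := by
  have h1 := (ch.W v).sub_mem (ch.m_spec v j) h
  have h2 : (ch.Fr.e j - ∑ i, ch.m j i v • ch.cF i) - (ch.Fr.e j - ∑ i, a i • ch.cF i) =
      ∑ i, (fun i => a i - ch.m j i v) i • ch.cF i := by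
    simp only [sub_smul, Finset.sum_sub_distrib]
    abel
  rw [h2] at h1
  have h3 := ch.cF_indep v _ h1
  intro i
  exact sub_eq_zero.mp (congrFun h3 i)

/-- the vectors `w_j = e_j - ∑ m_ji cF_i` -/
noncomputable def w (v : V) (j : Fin ch.N) : F := ch.Fr.e j - ∑ i, ch.m j i v • ch.cF i

theorem w_mem (v : V) (j : Fin ch.N) : ch.w v j ∈ ch.W v := ch.m_spec v j

/-- the residues `w̄_j = ē_j - ∑ m̄_ji c̄_i` -/
noncomputable def wb (v : V) (j : Fin ch.N) : Fb :=
  ch.Fr.eb j - ∑ i, d.resA (ch.mA j i v) • ch.cB i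

theorem w_mem_Ov (v : V) (j : Fin ch.N) : ch.w v j ∈ d.Ov := by
  refine d.Ov.sub_mem (ch.Fr.mem j) (d.Ov.sum_mem fun i _ => ?_)
  exact d.smul_mem (ch.mA j i v) (ch.cF_mem_Ov i)

theorem res_w (v : V) (j : Fin ch.N) : d.res ⟨ch.w v j, ch.w_mem_Ov v j⟩ = ch.wb v j := by
  obtain ⟨hmem, hres⟩ := alpr_res_sum d ch.cF ch.cF_mem_Ov (fun i => ch.mA j i v)
  have h1 : d.res ⟨ch.w v j, ch.w_mem_Ov v j⟩ =
      d.res ⟨ch.Fr.e j, ch.Fr.mem j⟩ -
        d.res ⟨∑ i, ((ch.mA j i v : ↥d.A) : K) • ch.cF i, hmem⟩ :=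
    d.res_sub' (ch.Fr.mem j) hmem
  rw [h1, hres, wb]
  congr 1
  exact Finset.sum_congr rfl fun i _ => by rw [ch.res_cF i]

/-- the reduced chart relation -/
theorem wb_mem (v : V) (j : Fin ch.N) : ch.wb v j ∈ ch.Wb v := by
  rw [← ch.resBall_W v, ← ch.res_w v j]
  exact ⟨ch.w v j, ⟨ch.w_mem v j, ch.w_mem_Ov v j⟩, rfl⟩

/-- the vectors `w_j` span `W v` -/
theorem span_w (v : V) : Submodule.span K (Set.range (ch.w v)) = ch.W v := by
  apply le_antisymm
  · rw [Submodule.span_le]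
    rintro _ ⟨j, rfl⟩
    exact ch.w_mem v j
  · intro f hf
    have hfU : f ∈ ch.Fr.spanK := by rw [ch.spanK_eq_U]; exact ch.W_le_U v hf
    obtain ⟨a, rfl⟩ := ch.Fr.mem_spanK_iff.mp hfU
    have hsum : ∑ j, a j • ch.w v j ∈ Submodule.span K (Set.range (ch.w v)) :=
      Submodule.sum_mem _ fun j _ => Submodule.smul_mem _ _ (Submodule.subset_span ⟨j, rfl⟩)
    have hdec : ch.Fr.comb a = ∑ j, a j • ch.w v j +
        ∑ i, (fun i => ∑ j, a j * ch.m j i v) i • ch.cF i := by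
      simp only [AlpxFrame.comb, w, smul_sub, Finset.sum_sub_distrib, Finset.smul_sum,
        Finset.sum_smul, smul_smul]
      rw [Finset.sum_comm (f := fun i j => (a j * ch.m j i v) • ch.cF i)]
      abel
    have h1 : ∑ i, (fun i => ∑ j, a j * ch.m j i v) i • ch.cF i ∈ ch.W v := by
      have h2 : ∑ i, (fun i => ∑ j, a j * ch.m j i v) i • ch.cF i =
          ch.Fr.comb a - ∑ j, a j • ch.w v j := by rw [hdec]; abel
      rw [h2]
      exact (ch.W v).sub_mem hf ((ch.W v).sum_mem fun j _ => (ch.W v).smul_mem _ (ch.w_mem v j))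
    have h3 := ch.cF_indep v _ h1
    rw [hdec, h3]
    simpa using hsum

/-- the vectors `w̄_j` span `W̄ v` -/
theorem span_wb (v : V) : Submodule.span k (Set.range (ch.wb v)) = ch.Wb v := by
  apply le_antisymm
  · rw [Submodule.span_le]
    rintro _ ⟨j, rfl⟩
    exact ch.wb_mem v j
  · intro f hf
    have hfU : f ∈ ch.Fr.spanB := ch.Wb_le_spanB v hf
    obtain ⟨a, rfl⟩ := ch.Fr.mem_spanB_iff.mp hfU
    have hsum : ∑ j, a j • ch.wb v j ∈ Submodule.span k (Set.range (ch.wb v)) :=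
      Submodule.sum_mem _ fun j _ => Submodule.smul_mem _ _ (Submodule.subset_span ⟨j, rfl⟩)
    have hdec : ch.Fr.combB a = ∑ j, a j • ch.wb v j +
        ∑ i, (fun i => ∑ j, a j * d.resA (ch.mA j i v)) i • ch.cB i := by
      simp only [AlpxFrame.combB, wb, smul_sub, Finset.sum_sub_distrib, Finset.smul_sum,
        Finset.sum_smul, smul_smul]
      rw [Finset.sum_comm (f := fun i j => (a j * d.resA (ch.mA j i v)) • ch.cB i)]
      abel
    have h1 : ∑ i, (fun i => ∑ j, a j * d.resA (ch.mA j i v)) i • ch.cB i ∈ ch.Wb v := by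
      have h2 : ∑ i, (fun i => ∑ j, a j * d.resA (ch.mA j i v)) i • ch.cB i =
          ch.Fr.combB a - ∑ j, a j • ch.wb v j := by rw [hdec]; abel
      rw [h2]
      exact (ch.Wb v).sub_mem hf
        ((ch.Wb v).sum_mem fun j _ => (ch.Wb v).smul_mem _ (ch.wb_mem v j))
    have h3 := ch.cB_indep v _ h1
    rw [hdec, h3]
    simpa using hsum

/-- the chart functions separate the points -/
theorem m_sep (v v' : V) (h : ∀ j i, ch.m j i v = ch.m j i v') : v = v' := by
  haveI := hg.sep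
  have hw : ch.w v = ch.w v' := by
    funext j
    simp only [w, h]
  have hW : ch.W v = ch.W v' := by rw [← ch.span_w v, ← ch.span_w v', hw]
  apply ch.hDinj
  have hdeg : ∀ u : V, 2 * (genusR K F : ℤ) ≤ Divisor.degree (alpxPt ch.inf ch.n - ch.D u) := by
    intro u
    rw [ch.degree_sub]
    have := ch.hn'
    omega
  exact alpk_determined hg.gen (hdeg v) (hdeg v') hW

end AlpxChart

end Fermat.Agent.Alpha
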