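/-
ALPHA-KEY F3 (helper4): the closed fibre of a chart.

`ch : AlpxChart hg V`, `infb = t3aR hg ch.inf`, `Db v = red (D v)`, `E0b = red E0`:
effectivity / degrees of the reduced divisors, `red (m·inf) = m·infb`, the reduced addition law
`exists_hb`, reduction of the Riemann–Roch spaces `L(m·inf - E)` (`resBall_sub`), and the
descriptions `Wb v = L̄(n·infb - Db v)`, `spanB = L̄(n·infb)`.
-/
import Fermat.Agent.Lib.Alpha.Key.ChartFun
import Fermat.Agent.Lib.Alpha.Red.Rep
import Fermat.Agent.Lib.Alpha.KM.ChainPt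

set_option autoImplicit false
set_option linter.style.haveILetI false
set_option linter.unusedSectionVars false
set_option linter.unusedVariables false

namespace Fermat.Agent.Alpha

open AlgebraicCurve IntermediateField Fermat.Agent.Curve Fermat.Agent.CurveP
  Fermat.Agent.Curve.PlaceAux Fermat.Agent.T1 Fermat.Agent.T3 RRAux

variable {K F k Fb : Type*} [Field K] [Field F] [Algebra K F] [Field k] [Field Fb] [Algebra k Fb]
variable [IsAlgClosed K] [IsAlgClosed k]
variable {d : TbBase K F k Fb} {ℓ : ℕ} {x : F}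

namespace AlpxChart

variable {hg : T3aGood d ℓ x} {V : Type*} [AddCommGroup V] (ch : AlpxChart hg V)

/-- the reduction of the base place -/
noncomputable def infb : Place k Fb := t3aR hg ch.inf

/-- the reductions of the divisors of the points -/
noncomputable def Db (v : V) : Divisor k Fb := alprRed hg (ch.D v)

/-- the reduction of the base divisor -/
noncomputable def E0b : Divisor k Fb := alprRed hg ch.E0

include ch in
theorem genus_eq : genusR k Fb = genusR K F := (alpr_genus_eq hg).symm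

theorem hnb : 6 * genusR k Fb + 2 ≤ ch.n := by rw [ch.genus_eq]; exact ch.hn

/-- `red (m·inf) = m·infb` -/
theorem red_pt (m : ℕ) : alprRed hg (alpxPt ch.inf m) = alpxPt (t3aR hg ch.inf) m :=
  alprRed_single hg ch.inf (m : ℤ)

theorem red_pt' (m : ℕ) : alprRed hg (alpxPt ch.inf m) = alpxPt ch.infb m := ch.red_pt m

theorem Db_nonneg (v : V) : 0 ≤ ch.Db v := alpr_red_nonneg hg (ch.hD v)

theorem E0b_nonneg : 0 ≤ ch.E0b := alpr_red_nonneg hg ch.hE0

theorem Db_degree (v : V) : Divisor.degree (ch.Db v) = genusR k Fb := by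
  rw [Db, alpr_degree_red, ch.hDdeg v, ch.genus_eq]

theorem E0b_degree : Divisor.degree ch.E0b = genusR k Fb := by
  rw [E0b, alpr_degree_red, ch.hE0deg, ch.genus_eq]

/-- (G1) on the closed fibre -/
theorem ell_Db (v : V) : ell (ch.Db v) = 1 := ch.hG1 v

/-- hence `ℓ(D v) = 1` on the generic fibre -/
theorem ell_D (v : V) : ell (ch.D v) = 1 := alpr_ell_eq_one_of_red hg (ch.hD v) (ch.hG1 v)

/-- **the reduced addition law**: `Db (v + w) + E0b ∼ Db v + Db w` via an explicit function -/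
theorem exists_hb (v w : V) : ∃ hb : Fb, hb ≠ 0 ∧ ∀ Q : Place k Fb,
    Q.ord hb = (alprRed hg (ch.D (v + w)) + alprRed hg ch.E0 - alprRed hg (ch.D v) -
      alprRed hg (ch.D w)) Q := by
  haveI := hg.sep
  haveI := hg.sepb'
  obtain ⟨h, hh0, hh⟩ := ch.hadd v w
  obtain ⟨c, hc0, hcO, hres⟩ := d.normalize h hh0
  have hch0 : c • h ≠ 0 := smul_ne_zero hc0 hh0
  have hdiv : divOf hg.gen (c • h) = ch.D (v + w) + ch.E0 - ch.D v - ch.D w := by
    ext P
    rw [divOf_apply hg.gen hch0, Algebra.smul_def,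
      P.ord_mul ((map_ne_zero (algebraMap K F)).mpr hc0) hh0, ord_algebraMap, zero_add, hh P]
  have hred := alpr_red_divOf hg hcO hres
  rw [hdiv, map_sub, map_sub, map_add] at hred
  refine ⟨d.res ⟨c • h, hcO⟩, hres, fun Q => ?_⟩
  rw [hred, divOf_apply hg.genb' hres]

/-- the same with the abbreviations `Db`, `E0b` -/
theorem exists_hb' (v w : V) : ∃ hb : Fb, hb ≠ 0 ∧ ∀ Q : Place k Fb,
    Q.ord hb = (ch.Db (v + w) + ch.E0b - ch.Db v - ch.Db w) Q := ch.exists_hb v w

/-- reduction of `L(m·inf - E)` for `m ≥ n`, `E` effective of degree `≤ 2g` -/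
theorem resBall_sub (m : ℕ) (hm : ch.n ≤ m) (E : Divisor K F) (hE : 0 ≤ E)
    (hEdeg : Divisor.degree E ≤ 2 * genusR K F) :
    d.resBall (riemannRochSpace (alpxPt ch.inf m - E)) =
      riemannRochSpace (alpxPt (t3aR hg ch.inf) m - alprRed hg E) := by
  haveI := hg.sep
  have hdeg : Divisor.degree (alpxPt ch.inf m - E) = (m : ℤ) - Divisor.degree E := by
    rw [map_sub, alpxPt_degree hg.gen]
  have h1 := alpr_resBall_eq hg (D := alpxPt ch.inf m - E) (by
    rw [hdeg]
    have := ch.hn'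
    have hm' : (ch.n : ℤ) ≤ m := by exact_mod_cast hm
    omega)
  rw [h1, map_sub, ch.red_pt]

/-- reduction of `L(m·inf)` for `m ≥ n` -/
theorem resBall_pt (m : ℕ) (hm : ch.n ≤ m) :
    d.resBall (riemannRochSpace (alpxPt ch.inf m)) =
      riemannRochSpace (alpxPt (t3aR hg ch.inf) m) := by
  have h := ch.resBall_sub m hm 0 le_rfl (by
    rw [map_zero]
    positivity)
  rwa [map_zero, sub_zero, sub_zero] at h

/-- `W̄ v = L̄(n·infb - Db v)` -/
theorem Wb_eq (v : V) :
    ch.Wb v = riemannRochSpace (alpxPt (t3aR hg ch.inf) ch.n - alprRed hg (ch.D v)) := by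
  rw [Wb, map_sub, ch.red_pt]

theorem Wb_eq' (v : V) : ch.Wb v = riemannRochSpace (alpxPt ch.infb ch.n - ch.Db v) := ch.Wb_eq v

/-- the residues of the frame span `L̄(n·infb)` -/
theorem spanB_eq : ch.Fr.spanB = riemannRochSpace (alpxPt (t3aR hg ch.inf) ch.n) := by
  rw [← ch.resBall_U, U]
  exact ch.resBall_pt ch.n le_rfl

theorem spanB_eq' : ch.Fr.spanB = riemannRochSpace (alpxPt ch.infb ch.n) := ch.spanB_eq

/-- (G2b) with the abbreviations -/
theorem hG2b' (v : V) : ch.Fr.spanB ≤ ch.Wb v ⊔ Submodule.span k (Set.range ch.cB) := ch.hG2b v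

/-- the `cB i` lie in `L̄(n·infb)` -/
theorem cB_mem_spanB (i : Fin (genusR K F)) : ch.cB i ∈ ch.Fr.spanB := ch.Fr.combB_mem_spanB _

/-- `L̄(n·infb) = W̄ v ⊕ span c̄` -/
theorem isCompl_Wb (v : V) :
    ch.Wb v ⊔ Submodule.span k (Set.range ch.cB) = ch.Fr.spanB := by
  apply le_antisymm
  · refine sup_le (ch.Wb_le_spanB v) ?_
    rw [Submodule.span_le]
    rintro _ ⟨i, rfl⟩
    exact ch.cB_mem_spanB i
  · exact ch.hG2b v

/-- `L(m·inf - E) ≤ L(m·inf)` for effective `E` -/
theorem rr_sub_le (m : ℕ) (E : Divisor K F) (hE : 0 ≤ E) :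
    riemannRochSpace (alpxPt ch.inf m - E) ≤ riemannRochSpace (alpxPt ch.inf m) :=
  riemannRochSpace_mono (sub_le_self _ hE)

/-- the same on the closed fibre -/
theorem rr_sub_le_bar (m : ℕ) (E : Divisor k Fb) (hE : 0 ≤ E) :
    riemannRochSpace (alpxPt (t3aR hg ch.inf) m - E) ≤
      riemannRochSpace (alpxPt (t3aR hg ch.inf) m) :=
  riemannRochSpace_mono (sub_le_self _ hE)

/-- degree of `m·inf - E` on the closed fibre -/
theorem degree_ptb_sub (m : ℕ) (E : Divisor k Fb) :
    Divisor.degree (alpxPt (t3aR hg ch.inf) m - E) = (m : ℤ) - Divisor.degree E := by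
  haveI := hg.sepb'
  rw [map_sub, alpxPt_degree hg.genb']

end AlpxChart

end Fermat.Agent.Alpha
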