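/-
ALPHA-KEY (helper8), part 8: auxiliary data of a chart (frames of `L(2n·inf)`, `L(4n·inf)`,
structure constants, orthonormal bases of `L(n·inf - E0)` and `L(2n·inf - E0)` in coordinates).
-/
import Fermat.Agent.Lib.Alpha.Key.FrameEx
import Fermat.Agent.Lib.Alpha.Key.ChartRed

set_option autoImplicit false
set_option linter.style.haveILetI false
set_option linter.unusedSectionVars false

namespace Fermat.Agent.Alpha

open AlgebraicCurve IntermediateField Fermat.Agent.Curve Fermat.Agent.CurveP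
  Fermat.Agent.Curve.PlaceAux Fermat.Agent.T1 Fermat.Agent.T3 RRAux

variable {K F k Fb : Type*} [Field K] [Field F] [Algebra K F] [Field k] [Field Fb] [Algebra k Fb]
variable [IsAlgClosed K] [IsAlgClosed k]
variable {d : TbBase K F k Fb} {ℓ : ℕ} {x : F} {hg : T3aGood d ℓ x} {V : Type*} [AddCommGroup V]

/-- auxiliary data of a chart -/
structure AlpxAux (ch : AlpxChart hg V) where
  /-- rank of `L(2n·inf)` -/
  N2 : ℕ
  /-- rank of `L(4n·inf)` -/
  N4 : ℕ
  /-- frame of `L(2n·inf)` -/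
  Fr2 : AlpxFrame d N2
  /-- frame of `L(4n·inf)` -/
  Fr4 : AlpxFrame d N4
  hFr2 : Fr2.spanK = riemannRochSpace (alpxPt ch.inf (2 * ch.n))
  /-- structure constants -/
  μ1 : AlpxMul ch.Fr ch.Fr Fr2
  /-- structure constants -/
  μ2 : AlpxMul Fr2 Fr2 Fr4
  /-- dimension of `L(n·inf - E0)` -/
  b1 : ℕ
  /-- dimension of `L(2n·inf - E0)` -/
  b2 : ℕ
  /-- orthonormal basis of `L(n·inf - E0)`, in coordinates -/
  β : Fin b1 → Fin ch.N → ↥d.A
  /-- orthonormal basis of `L(2n·inf - E0)`, in coordinates -/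
  β' : Fin b2 → Fin N2 → ↥d.A
  hβ : Submodule.span K (Set.range fun t => ch.Fr.comb fun s => ((β t s : ↥d.A) : K)) =
    riemannRochSpace (alpxPt ch.inf ch.n - ch.E0)
  hβb : Submodule.span k (Set.range fun t => ch.Fr.combB fun s => d.resA (β t s)) =
    d.resBall (riemannRochSpace (alpxPt ch.inf ch.n - ch.E0))
  hβ'ind : LinearIndependent K (fun q => Fr2.comb fun s => ((β' q s : ↥d.A) : K))
  hβ' : Submodule.span K (Set.range fun q => Fr2.comb fun s => ((β' q s : ↥d.A) : K)) =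
    riemannRochSpace (alpxPt ch.inf (2 * ch.n) - ch.E0)
  hβ'bind : LinearIndependent k (fun q => Fr2.combB fun s => d.resA (β' q s))
  hβ'b : Submodule.span k (Set.range fun q => Fr2.combB fun s => d.resA (β' q s)) =
    d.resBall (riemannRochSpace (alpxPt ch.inf (2 * ch.n) - ch.E0))

theorem alpxPt_add' (P : Place K F) (a b : ℕ) : alpxPt P a + alpxPt P b = alpxPt P (a + b) := by
  rw [alpxPt, alpxPt, alpxPt, ← Finsupp.single_add, Nat.cast_add]

theorem alpxPt_sub_le (P : Place K F) (a : ℕ) {E : Divisor K F} (hE : 0 ≤ E) :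
    alpxPt P a - E ≤ alpxPt P a := sub_le_self _ hE

/-- the auxiliary data exist -/
theorem AlpxChart.exists_aux (ch : AlpxChart hg V) : Nonempty (AlpxAux ch) := by
  haveI := hg.sep
  haveI : FiniteDimensional K ↥(riemannRochSpace (alpxPt ch.inf (2 * ch.n))) :=
    alpr_finiteDimensional hg _
  haveI : FiniteDimensional K ↥(riemannRochSpace (alpxPt ch.inf (4 * ch.n))) :=
    alpr_finiteDimensional hg _
  obtain ⟨Fr2, hFr2⟩ := alpx_exists_frame (d := d) (riemannRochSpace (alpxPt ch.inf (2 * ch.n)))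
  obtain ⟨Fr4, hFr4⟩ := alpx_exists_frame (d := d) (riemannRochSpace (alpxPt ch.inf (4 * ch.n)))
  have h1 : ∀ i j, ch.Fr.e i * ch.Fr.e j ∈ Fr2.spanK := by
    intro i j
    rw [hFr2, two_mul, ← alpxPt_add']
    exact mul_mem_riemannRochSpace (ch.e_mem_U i) (ch.e_mem_U j)
  have h2 : ∀ i j, Fr2.e i * Fr2.e j ∈ Fr4.spanK := by
    intro i j
    have hi : Fr2.e i ∈ riemannRochSpace (alpxPt ch.inf (2 * ch.n)) :=
      hFr2.le (Submodule.subset_span ⟨i, rfl⟩)
    have hj : Fr2.e j ∈ riemannRochSpace (alpxPt ch.inf (2 * ch.n)) :=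
      hFr2.le (Submodule.subset_span ⟨j, rfl⟩)
    rw [hFr4, show 4 * ch.n = 2 * ch.n + 2 * ch.n by ring, ← alpxPt_add']
    exact mul_mem_riemannRochSpace hi hj
  obtain ⟨μ1⟩ := AlpxMul.exists ch.Fr ch.Fr Fr2 h1
  obtain ⟨μ2⟩ := AlpxMul.exists Fr2 Fr2 Fr4 h2
  have hle1 : riemannRochSpace (alpxPt ch.inf ch.n - ch.E0) ≤ ch.Fr.spanK := by
    rw [ch.hFr]
    exact riemannRochSpace_mono (alpxPt_sub_le _ _ ch.hE0)
  have hle2 : riemannRochSpace (alpxPt ch.inf (2 * ch.n) - ch.E0) ≤ Fr2.spanK := by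
    rw [hFr2]
    exact riemannRochSpace_mono (alpxPt_sub_le _ _ ch.hE0)
  obtain ⟨β, -, hβ, -, hβb⟩ := alpx_exists_subframe ch.Fr _ hle1
  obtain ⟨β', hβ'ind, hβ', hβ'bind, hβ'b⟩ := alpx_exists_subframe Fr2 _ hle2
  exact ⟨⟨_, _, Fr2, Fr4, hFr2, μ1, μ2, _, _, β, β', hβ, hβb, hβ'ind, hβ', hβ'bind, hβ'b⟩⟩

end Fermat.Agent.Alpha
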