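/-
ALPHA-KEY (helper8), part 9: **assembly of the KEY lemma**.

From a chart `ch`, a cluster algebra `T` containing the chart functions of the two factors
(`AlpxClData`) and the auxiliary data `ax : AlpxAux ch`, build the abstract chain data and the
specialisations, verify the fibre hypotheses of `alpx_chain` with `alpx_fibre`, and conclude that
`(x, y) ↦ m_ji (x + y)` lies in `T`.
-/
import Fermat.Agent.Lib.Alpha.Key.AuxData
import Fermat.Agent.Lib.Alpha.Key.Fibre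
import Fermat.Agent.Lib.Alpha.CRank.Valued

set_option autoImplicit false
set_option linter.style.haveILetI false
set_option linter.unusedSectionVars false

namespace Fermat.Agent.Alpha

open AlgebraicCurve IntermediateField Fermat.Agent.Curve Fermat.Agent.CurveP
  Fermat.Agent.Curve.PlaceAux Fermat.Agent.T1 Fermat.Agent.T3 RRAux

variable {K F k Fb : Type*} [Field K] [Field F] [Algebra K F] [Field k] [Field Fb] [Algebra k Fb]
variable [IsAlgClosed K] [IsAlgClosed k]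
variable {d : TbBase K F k Fb} {ℓ : ℕ} {x : F} {hg : T3aGood d ℓ x} {V : Type*} [AddCommGroup V]
variable {c : Type*} [Fintype c] [DecidableEq c]

theorem alpxEv_single {T L E : Type*} [CommRing T] [Field L] [AddCommGroup E] [Module L E]
    (ψ : T →+* L) {N : ℕ} (ε : Fin N → E) (j : Fin N) :
    alpxEv ψ ε (Pi.single j 1) = ε j := by
  classical
  rw [alpxEv, Finset.sum_eq_single j]
  · simp
  · intro s _ hs
    simp [Pi.single_eq_of_ne hs]
  · intro h; exact absurd (Finset.mem_univ _) h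

/-- the chart functions of the two factors, as elements of a cluster algebra -/
structure AlpxClData (ch : AlpxChart hg V) (T : Subalgebra ↥d.A (c → ↥d.A)) where
  /-- the points of the cluster -/
  pt : c → V × V
  /-- the chart functions of the first factor -/
  mx : Fin ch.N → Fin (genusR K F) → ↥T
  /-- the chart functions of the second factor -/
  my : Fin ch.N → Fin (genusR K F) → ↥T
  hmx : ∀ j i z, (((mx j i : ↥T) : c → ↥d.A) z : K) = ch.m j i (pt z).1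
  hmy : ∀ j i z, (((my j i : ↥T) : c → ↥d.A) z : K) = ch.m j i (pt z).2

namespace AlpxAux

variable {ch : AlpxChart hg V} (ax : AlpxAux ch) {T : Subalgebra ↥d.A (c → ↥d.A)}
  (cd : AlpxClData ch T)

/-- the constant section with coordinates `a` -/
def cst (T : Subalgebra ↥d.A (c → ↥d.A)) {N : ℕ} (a : Fin N → ↥d.A) : Fin N → ↥T := fun s =>
  algebraMap ↥d.A ↥T (a s)

/-- the chain data of a chart -/
noncomputable def chainData : AlpxChainData ↥T where
  N1 := ch.N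
  N2 := ax.N2
  N4 := ax.N4
  γ₁ i j p := algebraMap ↥d.A ↥T (ax.μ1.γ i j p)
  γ₂ i j p := algebraMap ↥d.A ↥T (ax.μ2.γ i j p)
  J := ch.N
  w j := Pi.single j 1 - ∑ i, cd.mx j i • cst T (ch.c i)
  w' j := Pi.single j 1 - ∑ i, cd.my j i • cst T (ch.c i)
  b1 := ax.b1
  b2 := ax.b2
  g := genusR K F
  β t := cst T (ax.β t)
  β' q := cst T (ax.β' q)
  cc i := cst T (ch.c i)

theorem alpxEv_cst_K {N : ℕ} (Fr : AlpxFrame d N) (z : c) (a : Fin N → ↥d.A) :
    alpxEv (alpxEvK T z) Fr.e (cst T a) = Fr.comb fun s => ((a s : ↥d.A) : K) := rfl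

theorem alpxEv_cst_k {N : ℕ} (Fr : AlpxFrame d N) (z₀ : c) (a : Fin N → ↥d.A) :
    alpxEv (alpxRho T z₀) Fr.eb (cst T a) = Fr.combB fun s => d.resA (a s) := rfl

/-- the specialisation at the point `z` -/
noncomputable def spz (z : c) : AlpxSp (ax.chainData cd) K F where
  ψ := alpxEvK T z
  ε1 := ch.Fr.e
  ε2 := ax.Fr2.e
  ε4 := ax.Fr4.e
  ind1 := ch.Fr.linearIndependent
  ind2 := ax.Fr2.linearIndependent
  ind4 := ax.Fr4.linearIndependent
  mul1 i j := by rw [ax.μ1.mul_eq i j]; rfl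
  mul2 i j := by rw [ax.μ2.mul_eq i j]; rfl
  indβ' := ax.hβ'ind

/-- the specialisation at the closed point (through `z₀`) -/
noncomputable def sp0 (z₀ : c) : AlpxSp (ax.chainData cd) k Fb where
  ψ := alpxRho T z₀
  ε1 := ch.Fr.eb
  ε2 := ax.Fr2.eb
  ε4 := ax.Fr4.eb
  ind1 := ch.Fr.eb_indep
  ind2 := ax.Fr2.eb_indep
  ind4 := ax.Fr4.eb_indep
  mul1 i j := by rw [ax.μ1.mul_eq_res i j]; rfl
  mul2 i j := by rw [ax.μ2.mul_eq_res i j]; rfl
  indβ' := ax.hβ'bind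

/-! ### values at the points -/

theorem spz_ev1_w (z : c) (j : Fin ch.N) :
    (ax.spz cd z).ev1 ((ax.chainData cd).w j) = ch.w (cd.pt z).1 j := by
  show alpxEv (alpxEvK T z) ch.Fr.e (Pi.single j 1 - ∑ i, cd.mx j i • cst T (ch.c i)) = _
  rw [alpxEv_sub, alpxEv_single, alpxEv_sum, AlpxChart.w]
  congr 1
  refine Finset.sum_congr rfl fun i _ => ?_
  rw [alpxEv_smul, alpxEv_cst_K, alpxEvK_apply, cd.hmx]
  rfl

theorem spz_ev1_w' (z : c) (j : Fin ch.N) :
    (ax.spz cd z).ev1 ((ax.chainData cd).w' j) = ch.w (cd.pt z).2 j := by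
  show alpxEv (alpxEvK T z) ch.Fr.e (Pi.single j 1 - ∑ i, cd.my j i • cst T (ch.c i)) = _
  rw [alpxEv_sub, alpxEv_single, alpxEv_sum, AlpxChart.w]
  congr 1
  refine Finset.sum_congr rfl fun i _ => ?_
  rw [alpxEv_smul, alpxEv_cst_K, alpxEvK_apply, cd.hmy]
  rfl

theorem mx_apply (z : c) (j : Fin ch.N) (i : Fin (genusR K F)) :
    ((cd.mx j i : ↥T) : c → ↥d.A) z = ch.mA j i (cd.pt z).1 := Subtype.ext (cd.hmx j i z)

theorem my_apply (z : c) (j : Fin ch.N) (i : Fin (genusR K F)) :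
    ((cd.my j i : ↥T) : c → ↥d.A) z = ch.mA j i (cd.pt z).2 := Subtype.ext (cd.hmy j i z)

theorem sp0_ev1_w (z₀ : c) (j : Fin ch.N) :
    (ax.sp0 cd z₀).ev1 ((ax.chainData cd).w j) = ch.wb (cd.pt z₀).1 j := by
  show alpxEv (alpxRho T z₀) ch.Fr.eb (Pi.single j 1 - ∑ i, cd.mx j i • cst T (ch.c i)) = _
  rw [alpxEv_sub, alpxEv_single, alpxEv_sum, AlpxChart.wb]
  congr 1
  refine Finset.sum_congr rfl fun i _ => ?_
  rw [alpxEv_smul, alpxEv_cst_k, alpxRho_apply, mx_apply]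
  rfl

theorem sp0_ev1_w' (z₀ : c) (j : Fin ch.N) :
    (ax.sp0 cd z₀).ev1 ((ax.chainData cd).w' j) = ch.wb (cd.pt z₀).2 j := by
  show alpxEv (alpxRho T z₀) ch.Fr.eb (Pi.single j 1 - ∑ i, cd.my j i • cst T (ch.c i)) = _
  rw [alpxEv_sub, alpxEv_single, alpxEv_sum, AlpxChart.wb]
  congr 1
  refine Finset.sum_congr rfl fun i _ => ?_
  rw [alpxEv_smul, alpxEv_cst_k, alpxRho_apply, my_apply]
  rfl

/-! ### the fibres -/

/-- the generic fibres -/
theorem spz_fibre (z : c) :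
    ∃ h : F, h ≠ 0 ∧ h ∈ (ax.spz cd z).HK ∧ (∀ h' ∈ (ax.spz cd z).HK, ∃ a : K, h' = a • h) ∧
      (Module.finrank K ↥(ax.spz cd z).SP : ℤ) = 2 * ch.n - 3 * genusR K F + 1 ∧
      (∀ h' ∈ (ax.spz cd z).HK, h' ≠ 0 →
        (ax.spz cd z).W3 h' = ch.W ((cd.pt z).1 + (cd.pt z).2)) ∧
      ∃ p, (ax.spz cd z).P p ≠ 0 := by
  haveI := hg.sep
  obtain ⟨h, hh0, hh⟩ := ch.hadd (cd.pt z).1 (cd.pt z).2
  have hell : ell (ch.D ((cd.pt z).1 + (cd.pt z).2)) = 1 :=
    alpr_ell_eq_one_of_red hg (ch.hD _) (ch.hG1 _)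
  have hw : Submodule.span K (Set.range fun j => (ax.spz cd z).ev1 ((ax.chainData cd).w j)) =
      riemannRochSpace (alpxPt ch.inf ch.n - ch.D (cd.pt z).1) := by
    have : (fun j => (ax.spz cd z).ev1 ((ax.chainData cd).w j)) = ch.w (cd.pt z).1 :=
      funext (ax.spz_ev1_w cd z)
    rw [this]
    exact ch.span_w _
  have hw' : Submodule.span K (Set.range fun j => (ax.spz cd z).ev1 ((ax.chainData cd).w' j)) =
      riemannRochSpace (alpxPt ch.inf ch.n - ch.D (cd.pt z).2) := by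
    have : (fun j => (ax.spz cd z).ev1 ((ax.chainData cd).w' j)) = ch.w (cd.pt z).2 :=
      funext (ax.spz_ev1_w' cd z)
    rw [this]
    exact ch.span_w _
  obtain ⟨h1, h2, h3, h4, h5⟩ := alpx_fibre hg.gen (ax.spz cd z) ch.hn (ch.hD _) (ch.hD _)
    (ch.hD _) ch.hE0 (ch.hDdeg _) (ch.hDdeg _) (ch.hDdeg _) ch.hE0deg hh0 hh hell ch.hFr hw hw'
    ax.hβ ax.hβ'
  exact ⟨h, hh0, h1, h2, h3, h4, h5⟩

/-- the closed fibre -/
theorem sp0_fibre (z₀ : c) :
    ∃ h : Fb, h ≠ 0 ∧ h ∈ (ax.sp0 cd z₀).HK ∧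
      (∀ h' ∈ (ax.sp0 cd z₀).HK, ∃ a : k, h' = a • h) ∧
      (Module.finrank k ↥(ax.sp0 cd z₀).SP : ℤ) = 2 * ch.n - 3 * genusR K F + 1 ∧
      (∀ h' ∈ (ax.sp0 cd z₀).HK, h' ≠ 0 →
        (ax.sp0 cd z₀).W3 h' = ch.Wb ((cd.pt z₀).1 + (cd.pt z₀).2)) ∧
      ∃ p, (ax.sp0 cd z₀).P p ≠ 0 := by
  haveI := hg.sepb'
  have hgen := alpr_genus_eq hg
  obtain ⟨h, hh0, hh⟩ := ch.exists_hb (cd.pt z₀).1 (cd.pt z₀).2
  have hn : 6 * genusR k Fb + 2 ≤ ch.n := by rw [← hgen]; exact ch.hn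
  have hdeg : ∀ v, Divisor.degree (alprRed hg (ch.D v)) = (genusR k Fb : ℤ) := fun v => by
    rw [alpr_degree_red, ch.hDdeg, hgen]
  have hE0deg : Divisor.degree (alprRed hg ch.E0) = (genusR k Fb : ℤ) := by
    rw [alpr_degree_red, ch.hE0deg, hgen]
  have hle : ∀ {E : Divisor K F}, Divisor.degree E = (genusR K F : ℤ) →
      Divisor.degree E ≤ 2 * (genusR K F : ℤ) := fun {E} hE => by
    rw [hE]; omega
  have hWb : ∀ v, ch.Wb v =
      riemannRochSpace (alpxPt (t3aR hg ch.inf) ch.n - alprRed hg (ch.D v)) := fun v => by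
    rw [AlpxChart.Wb, map_sub, ch.red_pt]
  have hε : Submodule.span k (Set.range (ax.sp0 cd z₀).ε1) =
      riemannRochSpace (alpxPt (t3aR hg ch.inf) ch.n) := by
    have h1 := ch.resBall_sub ch.n le_rfl 0 le_rfl (by
      rw [map_zero]; positivity)
    rw [sub_zero, map_zero, sub_zero] at h1
    rw [← h1]
    exact ch.resBall_U.symm
  have hw : Submodule.span k (Set.range fun j => (ax.sp0 cd z₀).ev1 ((ax.chainData cd).w j)) =
      riemannRochSpace (alpxPt (t3aR hg ch.inf) ch.n - alprRed hg (ch.D (cd.pt z₀).1)) := by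
    have : (fun j => (ax.sp0 cd z₀).ev1 ((ax.chainData cd).w j)) = ch.wb (cd.pt z₀).1 :=
      funext (ax.sp0_ev1_w cd z₀)
    rw [this, ← hWb]
    exact ch.span_wb _
  have hw' : Submodule.span k (Set.range fun j => (ax.sp0 cd z₀).ev1 ((ax.chainData cd).w' j)) =
      riemannRochSpace (alpxPt (t3aR hg ch.inf) ch.n - alprRed hg (ch.D (cd.pt z₀).2)) := by
    have : (fun j => (ax.sp0 cd z₀).ev1 ((ax.chainData cd).w' j)) = ch.wb (cd.pt z₀).2 :=
      funext (ax.sp0_ev1_w' cd z₀)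
    rw [this, ← hWb]
    exact ch.span_wb _
  have hβ : Submodule.span k (Set.range fun t => (ax.sp0 cd z₀).ev1 ((ax.chainData cd).β t)) =
      riemannRochSpace (alpxPt (t3aR hg ch.inf) ch.n - alprRed hg ch.E0) := by
    rw [← ch.resBall_sub ch.n le_rfl ch.E0 ch.hE0 (hle ch.hE0deg)]
    exact ax.hβb
  have hβ' : (ax.sp0 cd z₀).BE =
      riemannRochSpace (alpxPt (t3aR hg ch.inf) (2 * ch.n) - alprRed hg ch.E0) := by
    rw [← ch.resBall_sub (2 * ch.n) (by omega) ch.E0 ch.hE0 (hle ch.hE0deg)]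
    exact ax.hβ'b
  obtain ⟨h1, h2, h3, h4, h5⟩ := alpx_fibre hg.genb' (ax.sp0 cd z₀) hn
    (alpr_red_nonneg hg (ch.hD _)) (alpr_red_nonneg hg (ch.hD _)) (alpr_red_nonneg hg (ch.hD _))
    (alpr_red_nonneg hg ch.hE0) (hdeg _) (hdeg _) (hdeg _) hE0deg hh0 hh (ch.hG1 _) hε hw hw'
    hβ hβ'
  refine ⟨h, hh0, h1, h2, ?_, ?_, h5⟩
  · rw [h3, hgen]
  · intro h' hh' hh'0
    rw [h4 h' hh' hh'0, hWb]

/-! ### the chain -/

include ax in
/-- **the chart functions of the sum lie in the cluster algebra** -/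
theorem exists_tau (hone : AlpxOneCluster T) (z₀ : c) (j : Fin ch.N)
    (i : Fin (genusR K F)) :
    ∃ τ : ↥T, ∀ z, (((τ : ↥T) : c → ↥d.A) z : K) = ch.m j i ((cd.pt z).1 + (cd.pt z).2) := by
  haveI : Nonempty c := ⟨z₀⟩
  obtain ⟨hb, hb0, hbHK, hbU, hbSP, hbW, hbP⟩ := ax.sp0_fibre cd z₀
  have hN : ∀ v : V, Module.finrank K ↥(ch.W v) = ch.N - genusR K F := fun v => by
    have := ch.finrank_W v; omega
  have hNb : ∀ v : V, Module.finrank k ↥(ch.Wb v) = ch.N - genusR K F := fun v => by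
    have := ch.finrank_Wb v; omega
  obtain ⟨ν, hν⟩ := alpx_chain (ax.chainData cd) (ax.spz cd) (ax.sp0 cd z₀)
    (alpxEvK_jointly_injective T) (fun b hb => hone.isUnit z₀ b hb)
    (Module.finrank k ↥(ax.sp0 cd z₀).SP) hbP
    (fun z => by
      obtain ⟨h, h0, hHK, -, -, hW, -⟩ := ax.spz_fibre cd z
      refine ⟨h, hHK, h0, ?_⟩
      rw [hW h hHK h0, hN]
      exact le_rfl)
    (fun h1 hh1 h2 hh2 h10 => by
      obtain ⟨a1, rfl⟩ := hbU h1 hh1
      obtain ⟨a2, rfl⟩ := hbU h2 hh2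
      have ha1 : a1 ≠ 0 := by
        rintro rfl
        exact h10 (zero_smul _ _)
      exact ⟨a2 / a1, by rw [smul_smul, div_mul_cancel₀ _ ha1]⟩)
    (fun z => by
      obtain ⟨h, h0, hHK, -, hSP, -, -⟩ := ax.spz_fibre cd z
      have : (Module.finrank K ↥(ax.spz cd z).SP : ℤ) =
          (Module.finrank k ↥(ax.sp0 cd z₀).SP : ℤ) := by rw [hSP, hbSP]
      exact le_of_eq (by exact_mod_cast this))
    le_rfl
    (fun h hh h0 => by
      rw [hbW h hh h0]
      refine ⟨le_of_eq (hNb _), ?_⟩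
      exact ch.hG2b _)
    (Pi.single j 1)
  refine ⟨ν i, fun z => ?_⟩
  obtain ⟨h, h0, hHK, -, -, hW, -⟩ := ax.spz_fibre cd z
  have h1 := hν z h hHK h0
  rw [hW h hHK h0] at h1
  have h2 : (ax.spz cd z).ev1 (Pi.single j 1) = ch.Fr.e j := alpxEv_single _ _ j
  rw [h2] at h1
  exact ch.m_unique _ j (fun i' => (ax.spz cd z).ψ (ν i')) h1 i

end AlpxAux

/-- **THE KEY LEMMA**: the chart functions of `x + y` lie in the `A`-algebra generated by the
chart functions of `x` and of `y`. -/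
theorem alpx_key (ch : AlpxChart hg V) [Finite V] (j : Fin ch.N) (i : Fin (genusR K F)) :
    (fun p : V × V => ch.m j i (p.1 + p.2)) ∈ Algebra.adjoin ↥d.A
      (Set.range (Sum.elim
        (fun (ji : Fin ch.N × Fin (genusR K F)) (p : V × V) => ch.m ji.1 ji.2 p.1)
        (fun (ji : Fin ch.N × Fin (genusR K F)) (p : V × V) => ch.m ji.1 ji.2 p.2))) := by
  classical
  haveI : Fintype V := Fintype.ofFinite V
  obtain ⟨ax⟩ := ch.exists_aux
  set gens : (Fin ch.N × Fin (genusR K F)) ⊕ (Fin ch.N × Fin (genusR K F)) → V × V → K :=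
    Sum.elim (fun (ji : Fin ch.N × Fin (genusR K F)) (p : V × V) => ch.m ji.1 ji.2 p.1)
      (fun (ji : Fin ch.N × Fin (genusR K F)) (p : V × V) => ch.m ji.1 ji.2 p.2) with hgens
  have hm : ∀ i z, gens i z ∈ d.A := by
    rintro (⟨j, i⟩ | ⟨j, i⟩) z
    · exact ch.m_mem j i z.1
    · exact ch.m_mem j i z.2
  apply alpc_mem_adjoin_of_local d.A gens hm
  intro z0
  haveI : Fintype (AlpcCl d.A gens z0) := Fintype.ofFinite _
  let cd : AlpxClData ch (alpcT d.A gens hm z0) :=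
    { pt := fun z => z.1
      mx := fun j i => ⟨fun z => alpcGen d.A gens hm (Sum.inl (j, i)) z.1,
        alpc_gen_mem_T d.A gens hm z0 (Sum.inl (j, i))⟩
      my := fun j i => ⟨fun z => alpcGen d.A gens hm (Sum.inr (j, i)) z.1,
        alpc_gen_mem_T d.A gens hm z0 (Sum.inr (j, i))⟩
      hmx := fun j i z => rfl
      hmy := fun j i z => rfl }
  obtain ⟨τ, hτ⟩ := ax.exists_tau cd (alpc_T_single d.A gens hm z0)
    ⟨z0, alpcSame_refl d.A gens z0⟩ j i
  exact ⟨τ.1, τ.2, fun z => hτ z⟩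

end Fermat.Agent.Alpha
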