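/-
ALPHA-KEY supplement (helper9, for helper5's (P-cyc)/(P-peu) instantiation):
**the residues of the chart functions `m j i v` depend exactly on the reduced divisor `Db v`.**

For a chart `ch : AlpxChart hg V`:
* `resA_mA_congr` : `Db v = Db v' → resA (mA j i v) = resA (mA j i v')` for all `j i`;
* `Db_eq_of_resA_mA` : the converse;
* `resA_mA_eq_iff` : the equivalence;
* `Db_eq_of_linEquiv` : linearly equivalent reduced divisors are equal (from (G1), `ℓ̄(Db v) = 1`).
-/
import Fermat.Agent.Lib.Alpha.Key.ChartRed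

set_option autoImplicit false
set_option linter.style.haveILetI false
set_option linter.unusedSectionVars false
set_option linter.unusedVariables false

namespace Fermat.Agent.Alpha

open AlgebraicCurve IntermediateField Fermat.Agent.Curve Fermat.Agent.CurveP
  Fermat.Agent.Curve.PlaceAux Fermat.Agent.T1 Fermat.Agent.T3 RRAux

variable {K F k Fb : Type*} [Field K] [Field F] [Algebra K F] [Field k] [Field Fb] [Algebra k Fb]
variable [IsAlgClosed K] [IsAlgClosed k]
variable {d : TbBase K F k Fb} {ℓ : ℕ} {x : F}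

namespace AlpxChart

variable {hg : T3aGood d ℓ x} {V : Type*} [AddCommGroup V] (ch : AlpxChart hg V)

/-- the residues of the chart functions depend only on the space `W̄ v` -/
theorem resA_mA_congr_of_Wb {v v' : V} (hW : ch.Wb v' = ch.Wb v) (j : Fin ch.N)
    (i : Fin (genusR K F)) : d.resA (ch.mA j i v) = d.resA (ch.mA j i v') := by
  have h1 : ch.wb v' j - ch.wb v j ∈ ch.Wb v :=
    (ch.Wb v).sub_mem (hW ▸ ch.wb_mem v' j) (ch.wb_mem v j)
  have h2 : ch.wb v' j - ch.wb v j =
      ∑ i, (d.resA (ch.mA j i v) - d.resA (ch.mA j i v')) • ch.cB i := by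
    simp only [wb, sub_smul, Finset.sum_sub_distrib]
    abel
  rw [h2] at h1
  have h3 := ch.cB_indep v _ h1
  exact sub_eq_zero.1 (congrFun h3 i)

/-- **the residues of the chart functions depend only on the reduced divisor** -/
theorem resA_mA_congr {v v' : V} (h : ch.Db v = ch.Db v') (j : Fin ch.N)
    (i : Fin (genusR K F)) : d.resA (ch.mA j i v) = d.resA (ch.mA j i v') :=
  ch.resA_mA_congr_of_Wb (by rw [ch.Wb_eq' v, ch.Wb_eq' v', h]) j i

/-- conversely the residues of the chart functions determine the reduced divisor -/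
theorem Db_eq_of_resA_mA {v v' : V}
    (h : ∀ j i, d.resA (ch.mA j i v) = d.resA (ch.mA j i v')) : ch.Db v = ch.Db v' := by
  haveI := hg.sepb'
  have hw : ch.wb v = ch.wb v' := by
    funext j
    simp only [wb, h]
  have hW : ch.Wb v = ch.Wb v' := by rw [← ch.span_wb v, ← ch.span_wb v', hw]
  rw [ch.Wb_eq v, ch.Wb_eq v'] at hW
  have hdeg : ∀ u : V, 2 * (genusR k Fb : ℤ) ≤
      Divisor.degree (alpxPt (t3aR hg ch.inf) ch.n - alprRed hg (ch.D u)) := by
    intro u
    rw [ch.degree_ptb_sub]
    have h1 : Divisor.degree (alprRed hg (ch.D u)) = genusR k Fb := ch.Db_degree u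
    rw [h1]
    have := ch.hn'
    rw [← ch.genus_eq] at this
    omega
  exact alpk_determined hg.genb' (hdeg v) (hdeg v') hW

theorem resA_mA_eq_iff {v v' : V} :
    (∀ j i, d.resA (ch.mA j i v) = d.resA (ch.mA j i v')) ↔ ch.Db v = ch.Db v' :=
  ⟨ch.Db_eq_of_resA_mA, fun h j i => ch.resA_mA_congr h j i⟩

/-- linearly equivalent reduced divisors of the chart are equal, by (G1) -/
theorem Db_eq_of_linEquiv {v v' : V} {hb : Fb} (hb0 : hb ≠ 0)
    (hord : ∀ Q : Place k Fb, Q.ord hb = (ch.Db v - ch.Db v') Q) : ch.Db v = ch.Db v' := by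
  have h1 : (1 : Fb) ∈ riemannRochSpace (ch.Db v') := by
    rw [mem_riemannRochSpace_iff]
    intro Q
    right
    rw [Q.ord_one]
    have := Finsupp.le_def.mp (ch.Db_nonneg v') Q
    simp only [Finsupp.coe_zero, Pi.zero_apply] at this
    omega
  have h2 : hb ∈ riemannRochSpace (ch.Db v') := by
    rw [mem_riemannRochSpace_iff]
    intro Q
    right
    rw [hord Q, Finsupp.sub_apply]
    have := Finsupp.le_def.mp (ch.Db_nonneg v) Q
    simp only [Finsupp.coe_zero, Pi.zero_apply] at this
    omega
  have hell : Module.finrank k ↥(riemannRochSpace (ch.Db v')) = 1 := ch.ell_Db v'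
  have hne : (⟨1, h1⟩ : ↥(riemannRochSpace (ch.Db v'))) ≠ 0 := by
    intro h
    exact one_ne_zero (congrArg Subtype.val h)
  obtain ⟨c, hc⟩ := (finrank_eq_one_iff_of_nonzero' _ hne).1 hell ⟨hb, h2⟩
  have hc' : hb = algebraMap k Fb c := by
    have := congrArg Subtype.val hc
    simp only [Submodule.coe_smul] at this
    rw [← this, Algebra.smul_def, mul_one]
  ext Q
  have h3 := hord Q
  rw [hc', ord_algebraMap, Finsupp.sub_apply] at h3
  omega

end AlpxChart

end Fermat.Agent.Alpha
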