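/-
ALPHA-KEY slice F1 (helper3): **the fibre package** `alpx_fibre`.

For ONE specialisation `S : AlpxSp D K F` of the abstract chain data in the CurveP setting
(`K` algebraically closed, `F / K` a function field), whose frames/sections are the expected
Riemann-Roch spaces:
* `span ε1 = L(n·inf)`, `span (w j) = L(n·inf - D₁)`, `span (w' j) = L(n·inf - D₂)`,
  `span (β t) = L(n·inf - E0)`, `BE = L(2n·inf - E0)`,
* `div h = D₃ + E0 - D₁ - D₂`, `ℓ(D₃) = 1`, all four divisors effective of degree `g`, `n ≥ 6g + 2`,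

the Hom-kernel space is the line `K h`, the products span `L(2n·inf - D₁ - D₂)` (of dimension
`2n - 3g + 1`), the colon space of every nonzero element of the Hom-kernel space is
`L(n·inf - D₃)`, and some product is nonzero.
These are exactly the fibrewise hypotheses of the abstract chain `alpx_chain`.
-/
import Mathlib
import Fermat.Agent.Lib.Alpha.Key.Chain
import Fermat.Agent.Lib.Alpha.KM.ChainPt

set_option autoImplicit false
set_option linter.unusedSectionVars false
set_option linter.unusedVariables false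

namespace Fermat.Agent.Alpha

open Fermat.Agent.Curve Fermat.Agent.CurveP AlgebraicCurve PlaceAux RRAux

variable {K F : Type*} [Field K] [Field F] [Algebra K F] [IsAlgClosed K]
  {x : F} (hx : IsFunctionFieldGen K F x)
  [Algebra.IsSeparable (IntermediateField.adjoin K {x}) F]

section Abstract

variable {T : Type*} [CommRing T] {D : AlpxChainData T} {L E : Type*} [Field L] [Field E]
  [Algebra L E] (S : AlpxSp D L E)

/-- the span of the products is the product of the spans -/
theorem alpx_SP_eq_mul :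
    S.SP = Submodule.span L (Set.range fun j => S.ev1 (D.w j)) *
      Submodule.span L (Set.range fun j => S.ev1 (D.w' j)) := by
  rw [Submodule.span_mul_span, AlpxSp.SP]
  congr 1
  ext f
  constructor
  · rintro ⟨p, rfl⟩
    exact Set.mul_mem_mul ⟨p.1, rfl⟩ ⟨p.2, rfl⟩
  · rintro ⟨_, ⟨j, rfl⟩, _, ⟨j', rfl⟩, rfl⟩
    exact ⟨(j, j'), rfl⟩

/-- products of elements of the two spans lie in the span of the products -/
theorem alpx_mul_mem_SP {u u' : E}
    (hu : u ∈ Submodule.span L (Set.range fun j => S.ev1 (D.w j)))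
    (hu' : u' ∈ Submodule.span L (Set.range fun j => S.ev1 (D.w' j))) : u * u' ∈ S.SP := by
  rw [alpx_SP_eq_mul]
  exact Submodule.mul_mem_mul hu hu'

/-- `h' ∈ HK` iff `h' · SP ⊆ BE` -/
theorem alpx_mem_HK_iff (h' : E) : h' ∈ S.HK ↔ ∀ t ∈ S.SP, h' * t ∈ S.BE := by
  constructor
  · intro hh' t ht
    have hle : S.SP ≤ S.BE.comap (LinearMap.mulLeft L h') := by
      rw [AlpxSp.SP, Submodule.span_le]
      rintro _ ⟨p, rfl⟩
      exact hh' p
    exact hle ht
  · intro hall p
    exact hall _ (Submodule.subset_span ⟨p, rfl⟩)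

/-- membership in `SPh h` -/
theorem alpx_mem_SPh_iff (h f : E) : f ∈ S.SPh h ↔ ∃ t ∈ S.SP, f = h * t := by
  rw [AlpxSp.SPh_eq_map, Submodule.mem_map]
  constructor
  · rintro ⟨t, ht, rfl⟩
    exact ⟨t, ht, rfl⟩
  · rintro ⟨t, ht, rfl⟩
    exact ⟨t, ht, rfl⟩

/-- the colon condition on the generators extends to the span -/
theorem alpx_mem_W3_iff (h u : E) : u ∈ S.W3 h ↔
    u ∈ Submodule.span L (Set.range S.ε1) ∧
      ∀ b ∈ Submodule.span L (Set.range fun t => S.ev1 (D.β t)), ∃ t ∈ S.SP, u * b = h * t := by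
  rw [AlpxSp.mem_W3]
  refine and_congr_right fun _ => ?_
  constructor
  · intro hall b hb
    have hle : Submodule.span L (Set.range fun t => S.ev1 (D.β t)) ≤
        (S.SPh h).comap (LinearMap.mulLeft L u) := by
      rw [Submodule.span_le]
      rintro _ ⟨t, rfl⟩
      exact hall t
    exact (alpx_mem_SPh_iff S h _).mp (hle hb)
  · intro hall t
    exact (alpx_mem_SPh_iff S h _).mpr (hall _ (Submodule.subset_span ⟨t, rfl⟩))

end Abstract

include hx in
/-- **The fibre package.** -/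
theorem alpx_fibre {T : Type*} [CommRing T] {D : AlpxChainData T} (S : AlpxSp D K F)
    {inf : Place K F} {n : ℕ} (hn : 6 * genusR K F + 2 ≤ n) {D₁ D₂ D₃ E0 : Divisor K F}
    (hD₁ : 0 ≤ D₁) (hD₂ : 0 ≤ D₂) (hD₃ : 0 ≤ D₃) (hE0 : 0 ≤ E0)
    (hD₁deg : Divisor.degree D₁ = genusR K F) (hD₂deg : Divisor.degree D₂ = genusR K F)
    (hD₃deg : Divisor.degree D₃ = genusR K F) (hE0deg : Divisor.degree E0 = genusR K F)
    {h : F} (hh0 : h ≠ 0) (hh : ∀ P : Place K F, P.ord h = (D₃ + E0 - D₁ - D₂) P)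
    (hell : ell D₃ = 1)
    (hε : Submodule.span K (Set.range S.ε1) = riemannRochSpace (alpxPt inf n))
    (hw : Submodule.span K (Set.range fun j => S.ev1 (D.w j)) =
      riemannRochSpace (alpxPt inf n - D₁))
    (hw' : Submodule.span K (Set.range fun j => S.ev1 (D.w' j)) =
      riemannRochSpace (alpxPt inf n - D₂))
    (hβ : Submodule.span K (Set.range fun t => S.ev1 (D.β t)) =
      riemannRochSpace (alpxPt inf n - E0))
    (hβ' : S.BE = riemannRochSpace (alpxPt inf (2 * n) - E0)) :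
    h ∈ S.HK ∧ (∀ h' ∈ S.HK, ∃ a : K, h' = a • h) ∧
      (Module.finrank K ↥S.SP : ℤ) = 2 * n - 3 * genusR K F + 1 ∧
      (∀ h' ∈ S.HK, h' ≠ 0 → S.W3 h' = riemannRochSpace (alpxPt inf n - D₃)) ∧
      ∃ p, S.P p ≠ 0 := by
  obtain ⟨hspan, hfin⟩ := alpk_chain_span hx hn hD₁deg hD₂deg (inf := inf)
  -- the span of the products
  have hSP : S.SP = riemannRochSpace (alpxPt inf (2 * n) - D₁ - D₂) := by
    rw [← hspan]
    apply le_antisymm
    · rw [AlpxSp.SP, Submodule.span_le]
      rintro _ ⟨p, rfl⟩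
      refine Submodule.subset_span ⟨S.ev1 (D.w p.1), ?_, S.ev1 (D.w' p.2), ?_, rfl⟩
      · rw [← hw]; exact Submodule.subset_span ⟨p.1, rfl⟩
      · rw [← hw']; exact Submodule.subset_span ⟨p.2, rfl⟩
    · rw [Submodule.span_le]
      rintro _ ⟨u, hu, u', hu', rfl⟩
      rw [← hw] at hu
      rw [← hw'] at hu'
      exact alpx_mul_mem_SP S hu hu'
  -- `h ∈ HK`
  have hHK : h ∈ S.HK := by
    intro p
    rw [hβ']
    refine alpk_chain_mul_mem hx hD₃ hh0 hh ?_ ?_
    · rw [← hw]; exact Submodule.subset_span ⟨p.1, rfl⟩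
    · rw [← hw']; exact Submodule.subset_span ⟨p.2, rfl⟩
  -- uniqueness
  have huniq : ∀ h' ∈ S.HK, ∃ a : K, h' = a • h := by
    intro h' hh'
    refine alpk_chain_unique hx hn hD₁deg hD₂deg hD₃ hh0 hh hell (inf := inf) h' ?_
    intro u hu u' hu'
    rw [← hw] at hu
    rw [← hw'] at hu'
    rw [← hβ']
    exact (alpx_mem_HK_iff S h').mp hh' _ (alpx_mul_mem_SP S hu hu')
  -- the colon space of `h`
  have hW3 : S.W3 h = riemannRochSpace (alpxPt inf n - D₃) := by
    ext u
    rw [alpx_mem_W3_iff, hβ, hSP, hε,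
      alpk_chain_colon hx hn hD₁deg hD₂deg hE0deg hh0 hh u]
    constructor
    · exact fun hu => hu.2
    · exact fun hu => ⟨alpk_space_sub_le hx _ hD₃ hu, hu⟩
  refine ⟨hHK, huniq, ?_, ?_, ?_⟩
  · rw [hSP]; exact hfin
  · intro h' hh' hh'0
    obtain ⟨a, rfl⟩ := huniq h' hh'
    have ha : a ≠ 0 := by
      rintro rfl
      exact hh'0 (zero_smul _ _)
    rw [S.W3_smul ha, hW3]
  · by_contra hcon
    push Not at hcon
    have hbot : S.SP = ⊥ := by
      rw [AlpxSp.SP, Submodule.span_eq_bot]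
      rintro _ ⟨p, rfl⟩
      exact hcon p
    have h0 : (Module.finrank K ↥S.SP : ℤ) = 0 := by
      rw [hbot, finrank_bot]; rfl
    rw [hSP, hfin] at h0
    have hn' : (6 * (genusR K F : ℤ) + 2 ≤ n) := by exact_mod_cast hn
    have hg0 : (0 : ℤ) ≤ genusR K F := Int.natCast_nonneg _
    omega

end Fermat.Agent.Alpha
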