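/-
ALPHA-KEY (helper8), part 1: orthonormal frames of Gauss lattices.

`d : TbBase K F k Fb` (valuation ring `A ⊂ K`, Gauss ring `𝒪 ⊂ F`, reduction `res : 𝒪 → F̄`).
An ORTHONORMAL FRAME is a finite family `e : Fin N → 𝒪` whose residues are `k`-linearly
independent.  Then `e` is `K`-linearly independent, `∑ aₛ eₛ ∈ 𝒪 ↔ ∀ s, aₛ ∈ A`, the unit ball of
`span_K e` is `⊕ A eₛ` and its reduction is `span_k ē`.
-/
import Fermat.Agent.Lib.T1.Core.Lattice1

set_option autoImplicit false
set_option linter.style.haveILetI false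
set_option linter.unusedSectionVars false

namespace Fermat.Agent.Alpha

open Fermat.Agent.T1

variable {K F k Fb : Type*} [Field K] [Field F] [Algebra K F] [Field k] [Field Fb] [Algebra k Fb]

/-- an orthonormal frame: Gauss-integral functions with linearly independent residues -/
structure AlpxFrame (d : TbBase K F k Fb) (N : ℕ) where
  /-- the functions -/
  e : Fin N → F
  mem : ∀ s, e s ∈ d.Ov
  indep : LinearIndependent k fun s => d.res ⟨e s, mem s⟩

namespace AlpxFrame

variable {d : TbBase K F k Fb} {N : ℕ} (Fr : AlpxFrame d N)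

/-- the residues of the frame -/
def eb (s : Fin N) : Fb := d.res ⟨Fr.e s, Fr.mem s⟩

theorem eb_indep : LinearIndependent k Fr.eb := Fr.indep

/-- the `K`-span of the frame -/
def spanK : Submodule K F := Submodule.span K (Set.range Fr.e)

/-- the `k`-span of the residues -/
def spanB : Submodule k Fb := Submodule.span k (Set.range Fr.eb)

/-- the linear combination with coefficients `a` -/
def comb (a : Fin N → K) : F := ∑ s, a s • Fr.e s

/-- the linear combination of the residues with coefficients `a` -/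
def combB (a : Fin N → k) : Fb := ∑ s, a s • Fr.eb s

theorem comb_mem_spanK (a : Fin N → K) : Fr.comb a ∈ Fr.spanK :=
  Submodule.sum_mem _ fun s _ => Submodule.smul_mem _ _ (Submodule.subset_span ⟨s, rfl⟩)

theorem combB_mem_spanB (a : Fin N → k) : Fr.combB a ∈ Fr.spanB :=
  Submodule.sum_mem _ fun s _ => Submodule.smul_mem _ _ (Submodule.subset_span ⟨s, rfl⟩)

theorem mem_spanK_iff {f : F} : f ∈ Fr.spanK ↔ ∃ a : Fin N → K, f = Fr.comb a := by
  constructor
  · intro hf
    obtain ⟨a, ha⟩ := (Submodule.mem_span_range_iff_exists_fun K).mp hf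
    exact ⟨a, ha.symm⟩
  · rintro ⟨a, rfl⟩
    exact Fr.comb_mem_spanK a

theorem mem_spanB_iff {t : Fb} : t ∈ Fr.spanB ↔ ∃ a : Fin N → k, t = Fr.combB a := by
  constructor
  · intro hf
    obtain ⟨a, ha⟩ := (Submodule.mem_span_range_iff_exists_fun k).mp hf
    exact ⟨a, ha.symm⟩
  · rintro ⟨a, rfl⟩
    exact Fr.combB_mem_spanB a

theorem comb_add (a b : Fin N → K) : Fr.comb (a + b) = Fr.comb a + Fr.comb b := by
  simp only [comb, Pi.add_apply, add_smul, Finset.sum_add_distrib]

theorem comb_smul (c : K) (a : Fin N → K) : Fr.comb (c • a) = c • Fr.comb a := by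
  simp only [comb, Pi.smul_apply, smul_eq_mul, mul_smul, Finset.smul_sum]

theorem comb_zero : Fr.comb 0 = 0 := by simp [comb]

theorem comb_sub (a b : Fin N → K) : Fr.comb (a - b) = Fr.comb a - Fr.comb b := by
  simp only [comb, Pi.sub_apply, sub_smul, Finset.sum_sub_distrib]

/-- `comb` as a linear map -/
def combL : (Fin N → K) →ₗ[K] F where
  toFun := Fr.comb
  map_add' := Fr.comb_add
  map_smul' := Fr.comb_smul

@[simp] theorem combL_apply (a : Fin N → K) : Fr.combL a = Fr.comb a := rfl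

theorem combB_add (a b : Fin N → k) : Fr.combB (a + b) = Fr.combB a + Fr.combB b := by
  simp only [combB, Pi.add_apply, add_smul, Finset.sum_add_distrib]

theorem combB_smul (c : k) (a : Fin N → k) : Fr.combB (c • a) = c • Fr.combB a := by
  simp only [combB, Pi.smul_apply, smul_eq_mul, mul_smul, Finset.smul_sum]

/-- `combB` as a linear map -/
def combBL : (Fin N → k) →ₗ[k] Fb where
  toFun := Fr.combB
  map_add' := Fr.combB_add
  map_smul' := Fr.combB_smul

@[simp] theorem combBL_apply (a : Fin N → k) : Fr.combBL a = Fr.combB a := rfl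

theorem combB_injective : Function.Injective Fr.combB := by
  intro a b hab
  have h := Fintype.linearIndependent_iff.mp Fr.eb_indep (a - b) (by
    have : Fr.combB a - Fr.combB b = 0 := sub_eq_zero.mpr hab
    simpa only [combB, Pi.sub_apply, sub_smul, Finset.sum_sub_distrib] using this)
  funext s
  exact sub_eq_zero.mp (h s)

/-- integral combinations are Gauss-integral -/
theorem comb_mem_Ov (a : Fin N → ↥d.A) : Fr.comb (fun s => ((a s : ↥d.A) : K)) ∈ d.Ov :=
  d.Ov.sum_mem fun s _ => d.smul_mem (a s) (Fr.mem s)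

/-- the residue of an integral combination -/
theorem res_comb (a : Fin N → ↥d.A) :
    d.res ⟨Fr.comb (fun s => ((a s : ↥d.A) : K)), Fr.comb_mem_Ov a⟩ =
      Fr.combB (fun s => d.resA (a s)) := by
  have hmem : ∀ s, ((a s : ↥d.A) : K) • Fr.e s ∈ d.Ov := fun s => d.smul_mem (a s) (Fr.mem s)
  have h := d.res_sum' Finset.univ (fun s => ((a s : ↥d.A) : K) • Fr.e s) hmem (Fr.comb_mem_Ov a)
  rw [combB]
  rw [show d.res ⟨Fr.comb (fun s => ((a s : ↥d.A) : K)), Fr.comb_mem_Ov a⟩ =
    d.res ⟨∑ s, ((a s : ↥d.A) : K) • Fr.e s, Fr.comb_mem_Ov a⟩ from rfl, h]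
  refine Finset.sum_congr rfl fun s _ => ?_
  exact d.res_smul' (a s) (Fr.mem s)

/-- normalisation of a nonzero coefficient vector: some `c ≠ 0` scales it into `A` with one
coefficient equal to `1` -/
theorem exists_scale {a : Fin N → K} (ha : a ≠ 0) :
    ∃ (s₀ : Fin N), a s₀ ≠ 0 ∧ ∀ s, a s / a s₀ ∈ d.A := by
  classical
  have hne : ∃ s, a s ≠ 0 := by
    by_contra h
    push Not at h
    exact ha (funext h)
  obtain ⟨s₁, hs₁⟩ := hne
  obtain ⟨s₀, -, hmax⟩ := Finset.exists_max_image Finset.univ (fun s => d.A.valuation (a s))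
    ⟨s₁, Finset.mem_univ _⟩
  have h1 : 0 < d.A.valuation (a s₁) := by
    rw [zero_lt_iff]
    exact (map_ne_zero _).mpr hs₁
  have hpos : 0 < d.A.valuation (a s₀) := lt_of_lt_of_le h1 (hmax s₁ (Finset.mem_univ _))
  have hs₀ : a s₀ ≠ 0 := by
    intro h0
    rw [h0, map_zero] at hpos
    exact lt_irrefl _ hpos
  refine ⟨s₀, hs₀, fun s => ?_⟩
  rw [← d.A.valuation_le_one_iff, map_div₀, div_le_one₀ hpos]
  exact hmax s (Finset.mem_univ _)

/-- the frame is `K`-linearly independent -/
theorem comb_injective : Function.Injective Fr.comb := by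
  intro a b hab
  by_contra hne
  have hab0 : a - b ≠ 0 := sub_ne_zero.mpr hne
  obtain ⟨s₀, hs₀, hsc⟩ := exists_scale (d := d) hab0
  set c : Fin N → ↥d.A := fun s => ⟨(a - b) s / (a - b) s₀, hsc s⟩ with hc
  have h0 : Fr.comb (fun s => ((c s : ↥d.A) : K)) = 0 := by
    have h1 : (fun s => ((c s : ↥d.A) : K)) = ((a - b) s₀)⁻¹ • (a - b) := by
      funext s
      simp only [hc, Pi.smul_apply, smul_eq_mul]
      rw [div_eq_mul_inv, mul_comm]
    rw [h1, comb_smul, comb_sub, hab, sub_self, smul_zero]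
  have h2 := Fr.res_comb c
  rw [d.res_congr (Fr.comb_mem_Ov c) h0, d.res_zero'] at h2
  have h3 : (fun s => d.resA (c s)) = 0 := Fr.combB_injective (by
    rw [← h2]; simp [combB])
  have h4 := congrFun h3 s₀
  have h5 : c s₀ = 1 := Subtype.ext (by simp only [hc]; exact div_self hs₀)
  rw [h5, map_one] at h4
  exact one_ne_zero h4

theorem linearIndependent : LinearIndependent K Fr.e := by
  rw [Fintype.linearIndependent_iff]
  intro a ha s
  have h := Fr.comb_injective (a₁ := a) (a₂ := 0) (by rw [comb_zero]; exact ha)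
  exact congrFun h s

/-- **orthonormality**: a Gauss-integral combination has integral coefficients -/
theorem coeff_mem {a : Fin N → K} (h : Fr.comb a ∈ d.Ov) : ∀ s, a s ∈ d.A := by
  classical
  by_contra hcon
  push Not at hcon
  obtain ⟨s₁, hs₁⟩ := hcon
  have ha0 : a ≠ 0 := by
    intro h0
    apply hs₁
    rw [h0]
    exact d.A.zero_mem
  obtain ⟨s₀, -, hmax⟩ := Finset.exists_max_image Finset.univ (fun s => d.A.valuation (a s))
    ⟨s₁, Finset.mem_univ _⟩
  have hv1 : 1 < d.A.valuation (a s₁) := by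
    rw [← not_le, d.A.valuation_le_one_iff]; exact hs₁
  have hv0 : 1 < d.A.valuation (a s₀) := lt_of_lt_of_le hv1 (hmax s₁ (Finset.mem_univ _))
  have hpos : 0 < d.A.valuation (a s₀) := lt_trans zero_lt_one hv0
  have hs₀ : a s₀ ≠ 0 := by
    intro h0
    rw [h0, map_zero] at hpos
    exact lt_irrefl _ hpos
  have hsc : ∀ s, a s / a s₀ ∈ d.A := fun s => by
    rw [← d.A.valuation_le_one_iff, map_div₀, div_le_one₀ hpos]
    exact hmax s (Finset.mem_univ _)
  have hinv : (a s₀)⁻¹ ∈ d.A := by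
    rw [← d.A.valuation_le_one_iff, map_inv₀]
    exact (inv_le_one₀ hpos).mpr hv0.le
  have hinvm : (⟨(a s₀)⁻¹, hinv⟩ : ↥d.A) ∈ IsLocalRing.maximalIdeal ↥d.A := by
    rw [IsLocalRing.mem_maximalIdeal, mem_nonunits_iff]
    intro hu
    have h1 : d.A.valuation (a s₀)⁻¹ = 1 := (d.A.valuation_eq_one_iff ⟨_, hinv⟩).mp hu
    rw [map_inv₀, inv_eq_one] at h1
    rw [h1] at hv0
    exact lt_irrefl _ hv0
  set c : Fin N → ↥d.A := fun s => ⟨a s / a s₀, hsc s⟩ with hc
  have h1 : Fr.comb (fun s => ((c s : ↥d.A) : K)) =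
      ((⟨(a s₀)⁻¹, hinv⟩ : ↥d.A) : K) • Fr.comb a := by
    have : (fun s => ((c s : ↥d.A) : K)) = (a s₀)⁻¹ • a := by
      funext s
      simp only [hc, Pi.smul_apply, smul_eq_mul]
      rw [div_eq_mul_inv, mul_comm]
    rw [this, comb_smul]
  have h2 := Fr.res_comb c
  rw [d.res_congr (Fr.comb_mem_Ov c) h1, d.res_smul' _ h, (d.resA_eq_zero_iff _).mpr hinvm,
    zero_smul] at h2
  have h3 : (fun s => d.resA (c s)) = 0 := Fr.combB_injective (by
    rw [← h2]; simp [combB])
  have h4 := congrFun h3 s₀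
  have h5 : c s₀ = 1 := Subtype.ext (by simp only [hc]; exact div_self hs₀)
  rw [h5, map_one] at h4
  exact one_ne_zero h4

/-- the unit ball of the span: integral combinations -/
theorem mem_ball_iff {f : F} :
    f ∈ d.ball Fr.spanK ↔ ∃ a : Fin N → ↥d.A, f = Fr.comb (fun s => ((a s : ↥d.A) : K)) := by
  constructor
  · rintro ⟨hf, hfO⟩
    obtain ⟨a, rfl⟩ := Fr.mem_spanK_iff.mp hf
    exact ⟨fun s => ⟨a s, Fr.coeff_mem hfO s⟩, rfl⟩
  · rintro ⟨a, rfl⟩
    exact ⟨Fr.comb_mem_spanK _, Fr.comb_mem_Ov a⟩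

/-- the reduction of the unit ball of the span is the span of the residues -/
theorem resBall_spanK : d.resBall Fr.spanK = Fr.spanB := by
  apply le_antisymm
  · rintro _ ⟨f, hf, rfl⟩
    obtain ⟨a, ha⟩ := Fr.mem_ball_iff.mp hf
    rw [d.res_congr hf.2 ha, Fr.res_comb a]
    exact Fr.combB_mem_spanB _
  · intro t ht
    obtain ⟨a, rfl⟩ := Fr.mem_spanB_iff.mp ht
    choose b hb using fun s => d.resA_surj (a s)
    refine ⟨Fr.comb (fun s => ((b s : ↥d.A) : K)), Fr.mem_ball_iff.mpr ⟨b, rfl⟩, ?_⟩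
    rw [Fr.res_comb b]
    congr 1
    funext s
    exact hb s

theorem finrank_spanK : Module.finrank K ↥Fr.spanK = N := by
  rw [spanK, finrank_span_eq_card Fr.linearIndependent, Fintype.card_fin]

theorem finrank_spanB : Module.finrank k ↥Fr.spanB = N := by
  rw [spanB, finrank_span_eq_card Fr.eb_indep, Fintype.card_fin]

end AlpxFrame

end Fermat.Agent.Alpha
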