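/-
ALPHA-KEY (helper8), part 4: abstract specialisations.

`T` a commutative ring ("cluster algebra"), coordinate vectors `Fin N → T` ("sections"),
multiplication of sections by structure constants `γ : Fin N₁ → Fin N₂ → Fin N₃ → T`.
A SPECIALISATION consists of a ring hom `ψ : T →+* L` to a field and a family `ε : Fin N → E` in an
`L`-algebra; the value of a section `t` is `alpxEv ψ ε t = ∑ ψ (t s) • ε s`.
-/
import Mathlib
import Fermat.Agent.Lib.Alpha.CRank.Basis

set_option autoImplicit false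
set_option linter.style.haveILetI false
set_option linter.unusedSectionVars false

namespace Fermat.Agent.Alpha

open Matrix

section Ev

variable {T L E : Type*} [CommRing T] [Field L] [AddCommGroup E] [Module L E]
variable (ψ : T →+* L) {N : ℕ} (ε : Fin N → E)

/-- the value of the section `t` -/
def alpxEv (t : Fin N → T) : E := ∑ s, ψ (t s) • ε s

/-- linear combination with coefficients in `L` -/
def alpxComb (a : Fin N → L) : E := ∑ s, a s • ε s

theorem alpxEv_eq_comb (t : Fin N → T) : alpxEv ψ ε t = alpxComb ε (fun s => ψ (t s)) := rfl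

/-- `alpxComb` as a linear map -/
def alpxCombL : (Fin N → L) →ₗ[L] E where
  toFun := alpxComb ε
  map_add' a b := by simp only [alpxComb, Pi.add_apply, add_smul, Finset.sum_add_distrib]
  map_smul' r a := by
    simp only [alpxComb, Pi.smul_apply, smul_eq_mul, mul_smul, Finset.smul_sum, RingHom.id_apply]

@[simp] theorem alpxCombL_apply (a : Fin N → L) : alpxCombL ε a = alpxComb ε a := rfl

theorem alpxComb_mem_span (a : Fin N → L) : alpxComb ε a ∈ Submodule.span L (Set.range ε) :=
  Submodule.sum_mem _ fun s _ => Submodule.smul_mem _ _ (Submodule.subset_span ⟨s, rfl⟩)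

theorem alpx_mem_span_iff {f : E} :
    f ∈ Submodule.span L (Set.range ε) ↔ ∃ a : Fin N → L, f = alpxComb ε a := by
  constructor
  · intro hf
    obtain ⟨a, ha⟩ := (Submodule.mem_span_range_iff_exists_fun L).mp hf
    exact ⟨a, ha.symm⟩
  · rintro ⟨a, rfl⟩
    exact alpxComb_mem_span ε a

theorem alpxComb_injective (hε : LinearIndependent L ε) :
    Function.Injective (alpxComb (L := L) ε) := by
  intro a b hab
  have h := Fintype.linearIndependent_iff.mp hε (a - b) (by
    have : alpxComb ε a - alpxComb ε b = 0 := sub_eq_zero.mpr hab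
    simpa only [alpxComb, Pi.sub_apply, sub_smul, Finset.sum_sub_distrib] using this)
  funext s
  exact sub_eq_zero.mp (h s)

theorem alpxComb_eq_zero_iff (hε : LinearIndependent L ε) (a : Fin N → L) :
    alpxComb ε a = 0 ↔ a = 0 := by
  constructor
  · intro h
    apply alpxComb_injective ε hε
    rw [h]
    simp [alpxComb]
  · rintro rfl
    simp [alpxComb]

theorem alpxComb_single [DecidableEq (Fin N)] (s₀ : Fin N) (a : L) :
    alpxComb ε (Pi.single s₀ a) = a • ε s₀ := by
  rw [alpxComb, Finset.sum_eq_single s₀]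
  · simp
  · intro s _ hs
    simp [Pi.single_eq_of_ne hs]
  · intro h; exact absurd (Finset.mem_univ _) h

theorem alpxEv_add (t t' : Fin N → T) : alpxEv ψ ε (t + t') = alpxEv ψ ε t + alpxEv ψ ε t' := by
  simp only [alpxEv, Pi.add_apply, map_add, add_smul, Finset.sum_add_distrib]

theorem alpxEv_smul (b : T) (t : Fin N → T) : alpxEv ψ ε (b • t) = ψ b • alpxEv ψ ε t := by
  simp only [alpxEv, Pi.smul_apply, smul_eq_mul, map_mul, mul_smul, Finset.smul_sum]

theorem alpxEv_zero : alpxEv ψ ε 0 = 0 := by simp [alpxEv]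

theorem alpxEv_sub (t t' : Fin N → T) : alpxEv ψ ε (t - t') = alpxEv ψ ε t - alpxEv ψ ε t' := by
  simp only [alpxEv, Pi.sub_apply, map_sub, sub_smul, Finset.sum_sub_distrib]

theorem alpxEv_sum {ι : Type*} (S : Finset ι) (t : ι → Fin N → T) :
    alpxEv ψ ε (∑ i ∈ S, t i) = ∑ i ∈ S, alpxEv ψ ε (t i) := by
  classical
  induction S using Finset.induction_on with
  | empty => simpa using alpxEv_zero ψ ε
  | insert a S ha ih => rw [Finset.sum_insert ha, Finset.sum_insert ha, alpxEv_add, ih]

theorem alpxEv_mem_span (t : Fin N → T) : alpxEv ψ ε t ∈ Submodule.span L (Set.range ε) :=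
  alpxComb_mem_span ε _

/-- value of `M.mulVec v` -/
theorem alpxEv_mulVec {ι : Type*} [Fintype ι] (M : Matrix (Fin N) ι T) (v : ι → T) :
    alpxEv ψ ε (M.mulVec v) = ∑ i, ψ (v i) • alpxEv ψ ε (M.col i) := by
  have h : M.mulVec v = ∑ i, v i • M.col i := by
    funext s
    simp [Matrix.mulVec, dotProduct, Finset.sum_apply, mul_comm]
  rw [h, alpxEv_sum]
  exact Finset.sum_congr rfl fun i _ => alpxEv_smul ψ ε (v i) (M.col i)

/-- value of `(M.map ψ).mulVec a` -/
theorem alpxComb_map_mulVec {ι : Type*} [Fintype ι] (M : Matrix (Fin N) ι T) (a : ι → L) :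
    alpxComb ε ((M.map ψ).mulVec a) = ∑ i, a i • alpxEv ψ ε (M.col i) := by
  simp only [alpxComb, alpxEv, Matrix.mulVec, dotProduct, Matrix.map_apply, Finset.sum_smul,
    Finset.smul_sum, Matrix.col_apply]
  rw [Finset.sum_comm]
  refine Finset.sum_congr rfl fun i _ => Finset.sum_congr rfl fun s _ => ?_
  rw [smul_smul, mul_comm]

/-- the rank of a specialised matrix of sections -/
theorem alpx_rank_map {ι : Type*} [Fintype ι] [DecidableEq ι] (hε : LinearIndependent L ε)
    (M : Matrix (Fin N) ι T) :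
    (M.map ψ).rank =
      Module.finrank L ↥(Submodule.span L (Set.range fun i => alpxEv ψ ε (M.col i))) := by
  rw [Matrix.rank_eq_finrank_span_cols]
  have hinj : Function.Injective (alpxCombL (L := L) ε) := alpxComb_injective ε hε
  have h1 : (Submodule.span L (Set.range (M.map ψ).col)).map (alpxCombL ε) =
      Submodule.span L (Set.range fun i => alpxEv ψ ε (M.col i)) := by
    rw [Submodule.map_span, ← Set.range_comp]
    rfl
  rw [← h1]
  exact (LinearEquiv.finrank_eq (Submodule.equivMapOfInjective (alpxCombL ε) hinj _))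

/-- membership in the range of a specialised matrix of sections -/
theorem alpx_mem_range_map_iff {ι : Type*} [Fintype ι] [DecidableEq ι]
    (hε : LinearIndependent L ε) (M : Matrix (Fin N) ι T) (a : Fin N → L) :
    a ∈ LinearMap.range (M.map ψ).mulVecLin ↔
      alpxComb ε a ∈ Submodule.span L (Set.range fun i => alpxEv ψ ε (M.col i)) := by
  constructor
  · rintro ⟨b, rfl⟩
    rw [Matrix.mulVecLin_apply, alpxComb_map_mulVec]
    exact Submodule.sum_mem _ fun i _ =>
      Submodule.smul_mem _ _ (Submodule.subset_span ⟨i, rfl⟩)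
  · intro h
    obtain ⟨b, hb⟩ := (Submodule.mem_span_range_iff_exists_fun L).mp h
    refine ⟨b, ?_⟩
    apply alpxComb_injective ε hε
    rw [Matrix.mulVecLin_apply, alpxComb_map_mulVec, hb]

end Ev

section Mul

variable {T L E : Type*} [CommRing T] [Field L] [CommRing E] [Algebra L E]
variable {N₁ N₂ N₃ : ℕ} (γ : Fin N₁ → Fin N₂ → Fin N₃ → T)

/-- the product of two sections -/
def alpxMulT (u : Fin N₁ → T) (v : Fin N₂ → T) : Fin N₃ → T := fun p =>
  ∑ i, ∑ j, γ i j p * (u i * v j)

/-- the matrix of `u ↦ u * v` -/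
def alpxMulMatR (v : Fin N₂ → T) : Matrix (Fin N₃) (Fin N₁) T := fun p i => ∑ j, γ i j p * v j

/-- the matrix of `v ↦ u * v` -/
def alpxMulMatL (u : Fin N₁ → T) : Matrix (Fin N₃) (Fin N₂) T := fun p j => ∑ i, γ i j p * u i

theorem alpxMulMatR_mulVec (u : Fin N₁ → T) (v : Fin N₂ → T) :
    (alpxMulMatR γ v).mulVec u = alpxMulT γ u v := by
  funext p
  simp only [Matrix.mulVec, dotProduct, alpxMulMatR, alpxMulT, Finset.sum_mul]
  refine Finset.sum_congr rfl fun i _ => Finset.sum_congr rfl fun j _ => ?_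
  ring

theorem alpxMulMatL_mulVec (u : Fin N₁ → T) (v : Fin N₂ → T) :
    (alpxMulMatL γ u).mulVec v = alpxMulT γ u v := by
  funext p
  simp only [Matrix.mulVec, dotProduct, alpxMulMatL, alpxMulT, Finset.sum_mul]
  rw [Finset.sum_comm]
  refine Finset.sum_congr rfl fun i _ => Finset.sum_congr rfl fun j _ => ?_
  ring

theorem alpxMulT_add_right (u : Fin N₁ → T) (v v' : Fin N₂ → T) :
    alpxMulT γ u (v + v') = alpxMulT γ u v + alpxMulT γ u v' := by
  rw [← alpxMulMatL_mulVec, ← alpxMulMatL_mulVec, ← alpxMulMatL_mulVec, Matrix.mulVec_add]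

theorem alpxMulT_smul_right (b : T) (u : Fin N₁ → T) (v : Fin N₂ → T) :
    alpxMulT γ u (b • v) = b • alpxMulT γ u v := by
  rw [← alpxMulMatL_mulVec, ← alpxMulMatL_mulVec, Matrix.mulVec_smul]

theorem alpxMulT_sum_right {ι : Type*} (S : Finset ι) (u : Fin N₁ → T) (v : ι → Fin N₂ → T) :
    alpxMulT γ u (∑ i ∈ S, v i) = ∑ i ∈ S, alpxMulT γ u (v i) := by
  classical
  induction S using Finset.induction_on with
  | empty =>
    simp only [Finset.sum_empty]
    rw [← alpxMulMatL_mulVec, Matrix.mulVec_zero]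
  | insert a S ha ih => rw [Finset.sum_insert ha, Finset.sum_insert ha, alpxMulT_add_right, ih]

variable (ψ : T →+* L) (ε₁ : Fin N₁ → E) (ε₂ : Fin N₂ → E) (ε₃ : Fin N₃ → E)

/-- multiplicativity of the values -/
theorem alpxEv_mulT (hmul : ∀ i j, ε₁ i * ε₂ j = ∑ p, ψ (γ i j p) • ε₃ p)
    (u : Fin N₁ → T) (v : Fin N₂ → T) :
    alpxEv ψ ε₃ (alpxMulT γ u v) = alpxEv ψ ε₁ u * alpxEv ψ ε₂ v := by
  simp only [alpxEv, alpxMulT, map_sum, map_mul]
  rw [Finset.sum_mul_sum]
  simp only [Finset.sum_smul]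
  rw [Finset.sum_comm]
  refine Finset.sum_congr rfl fun i _ => ?_
  rw [Finset.sum_comm]
  refine Finset.sum_congr rfl fun j _ => ?_
  rw [smul_mul_smul_comm, hmul i j, Finset.smul_sum]
  refine Finset.sum_congr rfl fun p _ => ?_
  rw [smul_smul, mul_comm]

/-- multiplicativity, coordinates in `L` on the left -/
theorem alpxComb_map_mulMatR (hmul : ∀ i j, ε₁ i * ε₂ j = ∑ p, ψ (γ i j p) • ε₃ p)
    (v : Fin N₂ → T) (a : Fin N₁ → L) :
    alpxComb ε₃ (((alpxMulMatR γ v).map ψ).mulVec a) = alpxComb ε₁ a * alpxEv ψ ε₂ v := by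
  simp only [alpxComb, alpxEv, Matrix.mulVec, dotProduct, Matrix.map_apply, alpxMulMatR, map_sum,
    map_mul]
  rw [Finset.sum_mul_sum]
  simp only [Finset.sum_smul, Finset.sum_mul]
  rw [Finset.sum_comm]
  refine Finset.sum_congr rfl fun i _ => ?_
  rw [Finset.sum_comm]
  refine Finset.sum_congr rfl fun j _ => ?_
  rw [smul_mul_smul_comm, hmul i j, Finset.smul_sum]
  refine Finset.sum_congr rfl fun p _ => ?_
  rw [smul_smul]
  congr 1
  ring

end Mul

end Fermat.Agent.Alpha
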