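/-
ALPHA-KEY (helper8), part 5: the abstract chain, step "Hom-kernel".

`AlpxChainData T` : sections over a commutative ring `T` (two families `w`, `w'` of sections of a
lattice of rank `N1`, constant families `β` (rank `N1`), `β'` (rank `N2`), `cc` (rank `N1`)) and
structure constants of the multiplications `N1 × N1 → N2`, `N2 × N2 → N4`.
`AlpxSp D L E` : a specialisation (a ring hom `ψ : T →+* L` to a field and independent families
`ε1 ε2 ε4` in a field `E ⊇ L`, multiplying according to the structure constants).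

The matrix `D.Theta` has, in every specialisation, kernel isomorphic to the space
`S.HK = {h | ∀ p, h * P p ∈ BE}` (`P p` = the products `w_j w'_j'`, `BE` = span of the `β'`).
-/
import Fermat.Agent.Lib.Alpha.Key.Spec

set_option autoImplicit false
set_option linter.style.haveILetI false
set_option linter.unusedSectionVars false

namespace Fermat.Agent.Alpha

open Matrix

/-- the data of the abstract chain over `T` -/
structure AlpxChainData (T : Type*) [CommRing T] where
  /-- rank of the first lattice -/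
  N1 : ℕ
  /-- rank of the second lattice -/
  N2 : ℕ
  /-- rank of the third lattice -/
  N4 : ℕ
  /-- structure constants `N1 × N1 → N2` -/
  γ₁ : Fin N1 → Fin N1 → Fin N2 → T
  /-- structure constants `N2 × N2 → N4` -/
  γ₂ : Fin N2 → Fin N2 → Fin N4 → T
  /-- number of generating sections -/
  J : ℕ
  /-- first family of sections -/
  w : Fin J → Fin N1 → T
  /-- second family of sections -/
  w' : Fin J → Fin N1 → T
  /-- size of `β` -/
  b1 : ℕ
  /-- size of `β'` -/
  b2 : ℕ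
  /-- size of `cc` -/
  g : ℕ
  /-- sections of the first lattice (test functions of the colon) -/
  β : Fin b1 → Fin N1 → T
  /-- sections of the second lattice (target of the Hom-kernel) -/
  β' : Fin b2 → Fin N2 → T
  /-- sections of the first lattice (complement) -/
  cc : Fin g → Fin N1 → T

namespace AlpxChainData

variable {T : Type*} [CommRing T] (D : AlpxChainData T)

/-- the index set of the products -/
abbrev G : Type := Fin D.J × Fin D.J

/-- the product sections `w_j * w'_j'` -/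
def Ps (p : D.G) : Fin D.N2 → T := alpxMulT D.γ₁ (D.w p.1) (D.w' p.2)

/-- the sections `w_j * w'_j' * β'_q` -/
def C (p : D.G) (q : Fin D.b2) : Fin D.N4 → T := alpxMulT D.γ₂ (D.Ps p) (D.β' q)

/-- a block matrix: row `(r, s)`, column `(p'', q)`, entry `C (b r) q s` if `p'' = a r` -/
def Blk {R : Type*} (a b : R → D.G) : Matrix (R × Fin D.N4) (D.G × Fin D.b2) T := fun r c =>
  if c.1 = a r.1 then D.C (b r.1) c.2 r.2 else 0

/-- **the Hom-kernel matrix** -/
def Theta : Matrix ((D.G × D.G) × Fin D.N4) (D.G × Fin D.b2) T :=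
  D.Blk Prod.snd Prod.fst - D.Blk Prod.fst Prod.snd

/-- the sections `∑ q, φ (p, q) • β' q` -/
def Is (φ : D.G × Fin D.b2 → T) (p : D.G) : Fin D.N2 → T := ∑ q, φ (p, q) • D.β' q

/-- the matrix with columns `Is φ p` -/
def MD (φ : D.G × Fin D.b2 → T) : Matrix (Fin D.N2) D.G T := fun s p => D.Is φ p s

theorem MD_col (φ : D.G × Fin D.b2 → T) (p : D.G) : (D.MD φ).col p = D.Is φ p := rfl

end AlpxChainData

/-- a specialisation of the chain data -/
structure AlpxSp {T : Type*} [CommRing T] (D : AlpxChainData T) (L E : Type*) [Field L] [Field E]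
    [Algebra L E] where
  /-- the point -/
  ψ : T →+* L
  /-- frame of the first lattice -/
  ε1 : Fin D.N1 → E
  /-- frame of the second lattice -/
  ε2 : Fin D.N2 → E
  /-- frame of the third lattice -/
  ε4 : Fin D.N4 → E
  ind1 : LinearIndependent L ε1
  ind2 : LinearIndependent L ε2
  ind4 : LinearIndependent L ε4
  mul1 : ∀ i j, ε1 i * ε1 j = ∑ p, ψ (D.γ₁ i j p) • ε2 p
  mul2 : ∀ i j, ε2 i * ε2 j = ∑ p, ψ (D.γ₂ i j p) • ε4 p
  indβ' : LinearIndependent L fun q => alpxEv ψ ε2 (D.β' q)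

namespace AlpxSp

variable {T : Type*} [CommRing T] {D : AlpxChainData T} {L E : Type*} [Field L] [Field E]
  [Algebra L E] (S : AlpxSp D L E)

/-- value of a section of the first lattice -/
def ev1 (t : Fin D.N1 → T) : E := alpxEv S.ψ S.ε1 t

/-- value of a section of the second lattice -/
def ev2 (t : Fin D.N2 → T) : E := alpxEv S.ψ S.ε2 t

/-- value of a section of the third lattice -/
def ev4 (t : Fin D.N4 → T) : E := alpxEv S.ψ S.ε4 t

/-- the products -/
def P (p : D.G) : E := S.ev1 (D.w p.1) * S.ev1 (D.w' p.2)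

theorem ev2_Ps (p : D.G) : S.ev2 (D.Ps p) = S.P p :=
  alpxEv_mulT D.γ₁ S.ψ S.ε1 S.ε1 S.ε2 S.mul1 _ _

theorem ev4_C (p : D.G) (q : Fin D.b2) : S.ev4 (D.C p q) = S.P p * S.ev2 (D.β' q) := by
  rw [← S.ev2_Ps]
  exact alpxEv_mulT D.γ₂ S.ψ S.ε2 S.ε2 S.ε4 S.mul2 _ _

/-- the target space of the Hom-kernel -/
def BE : Submodule L E := Submodule.span L (Set.range fun q => S.ev2 (D.β' q))

/-- **the Hom-kernel space** -/
def HK : Submodule L E where
  carrier := {h | ∀ p, h * S.P p ∈ S.BE}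
  add_mem' {a b} ha hb p := by
    rw [add_mul]
    exact S.BE.add_mem (ha p) (hb p)
  zero_mem' p := by
    rw [zero_mul]
    exact S.BE.zero_mem
  smul_mem' l a ha p := by
    rw [smul_mul_assoc]
    exact S.BE.smul_mem l (ha p)

theorem mem_HK {h : E} : h ∈ S.HK ↔ ∀ p, h * S.P p ∈ S.BE := Iff.rfl

/-- the element of `BE` with coordinates `v (p, ·)` -/
def I (v : D.G × Fin D.b2 → L) (p : D.G) : E :=
  alpxComb (fun q => S.ev2 (D.β' q)) fun q => v (p, q)

theorem I_mem (v : D.G × Fin D.b2 → L) (p : D.G) : S.I v p ∈ S.BE := alpxComb_mem_span _ _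

theorem I_smul (l : L) (v : D.G × Fin D.b2 → L) (p : D.G) : S.I (l • v) p = l • S.I v p := by
  have := (alpxCombL (L := L) fun q => S.ev2 (D.β' q)).map_smul l fun q => v (p, q)
  exact this

theorem I_zero (p : D.G) : S.I 0 p = 0 := by
  have := (alpxCombL (L := L) fun q => S.ev2 (D.β' q)).map_zero
  exact this

theorem I_injective {v v' : D.G × Fin D.b2 → L} (h : ∀ p, S.I v p = S.I v' p) : v = v' := by
  funext ⟨p, q⟩
  have := alpxComb_injective _ S.indβ' (h p)
  exact congrFun this q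

theorem exists_I_eq {f : E} (hf : f ∈ S.BE) : ∃ a : Fin D.b2 → L,
    alpxComb (fun q => S.ev2 (D.β' q)) a = f := by
  obtain ⟨a, ha⟩ := (alpx_mem_span_iff (L := L) _).mp hf
  exact ⟨a, ha.symm⟩

/-- the value of a block of `Blk` -/
theorem comb_blk {R : Type*} [Fintype R] (a b : R → D.G) (v : D.G × Fin D.b2 → L) (r : R) :
    alpxComb S.ε4 (fun s => ((D.Blk a b).map S.ψ).mulVec v (r, s)) =
      S.P (b r) * S.I v (a r) := by
  have h1 : ∀ s, ((D.Blk a b).map S.ψ).mulVec v (r, s) =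
      ∑ q, S.ψ (D.C (b r) q s) * v (a r, q) := by
    intro s
    simp only [Matrix.mulVec, dotProduct, Matrix.map_apply, AlpxChainData.Blk]
    rw [Fintype.sum_prod_type, Finset.sum_eq_single (a r)]
    · simp
    · intro p _ hp
      simp [hp]
    · intro h; exact absurd (Finset.mem_univ _) h
  simp only [h1]
  rw [I, alpxComb, alpxComb, Finset.mul_sum]
  simp only [Finset.sum_smul]
  rw [Finset.sum_comm]
  refine Finset.sum_congr rfl fun q _ => ?_
  rw [mul_smul_comm, ← S.ev4_C, ev4, alpxEv, Finset.smul_sum]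
  refine Finset.sum_congr rfl fun s _ => ?_
  rw [smul_smul, mul_comm]

/-- the value of a block of `Theta` -/
theorem comb_theta (v : D.G × Fin D.b2 → L) (p p' : D.G) :
    alpxComb S.ε4 (fun s => (D.Theta.map S.ψ).mulVec v ((p, p'), s)) =
      S.P p * S.I v p' - S.P p' * S.I v p := by
  have h := S.comb_blk (R := D.G × D.G) Prod.snd Prod.fst v (p, p')
  have h' := S.comb_blk (R := D.G × D.G) Prod.fst Prod.snd v (p, p')
  rw [← h, ← h']
  have : ∀ s, (D.Theta.map S.ψ).mulVec v ((p, p'), s) =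
      ((D.Blk Prod.snd Prod.fst).map S.ψ).mulVec v ((p, p'), s) -
        ((D.Blk Prod.fst Prod.snd).map S.ψ).mulVec v ((p, p'), s) := by
    intro s
    rw [AlpxChainData.Theta, Matrix.map_sub (f := S.ψ) (map_sub S.ψ), Matrix.sub_mulVec]
    rfl
  simp only [this]
  simp only [alpxComb, sub_smul, Finset.sum_sub_distrib]

/-- **the kernel of `Theta` in a specialisation** -/
theorem theta_mulVec_eq_zero_iff (v : D.G × Fin D.b2 → L) :
    (D.Theta.map S.ψ).mulVec v = 0 ↔ ∀ p p', S.P p * S.I v p' = S.P p' * S.I v p := by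
  constructor
  · intro h p p'
    have := S.comb_theta v p p'
    rw [h] at this
    rw [← sub_eq_zero, ← this]
    simp [alpxComb]
  · intro h
    funext ⟨⟨p, p'⟩, s⟩
    have h1 := S.comb_theta v p p'
    rw [h p p', sub_self] at h1
    have h2 := (alpxComb_eq_zero_iff S.ε4 S.ind4 _).mp h1
    exact congrFun h2 s

theorem mem_ker_theta_iff (v : D.G × Fin D.b2 → L) :
    v ∈ LinearMap.ker (D.Theta.map S.ψ).mulVecLin ↔
      ∀ p p', S.P p * S.I v p' = S.P p' * S.I v p := by
  rw [LinearMap.mem_ker, Matrix.mulVecLin_apply]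
  exact S.theta_mulVec_eq_zero_iff v

/-- on the kernel, `I v p = h * P p` with `h = I v p0 / P p0` -/
theorem I_eq_of_mem_ker {v : D.G × Fin D.b2 → L}
    (hv : v ∈ LinearMap.ker (D.Theta.map S.ψ).mulVecLin) {p0 : D.G} (hp0 : S.P p0 ≠ 0) (p : D.G) :
    S.I v p = (S.I v p0 / S.P p0) * S.P p := by
  have := (S.mem_ker_theta_iff v).mp hv p0 p
  field_simp
  rw [mul_comm, this, mul_comm]

/-- kernel vectors give elements of the Hom-kernel space -/
theorem div_mem_HK {v : D.G × Fin D.b2 → L}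
    (hv : v ∈ LinearMap.ker (D.Theta.map S.ψ).mulVecLin) {p0 : D.G} (hp0 : S.P p0 ≠ 0) :
    S.I v p0 / S.P p0 ∈ S.HK := fun p => by
  rw [← S.I_eq_of_mem_ker hv hp0 p]
  exact S.I_mem v p

/-- nonzero kernel vectors give nonzero elements -/
theorem div_ne_zero {v : D.G × Fin D.b2 → L}
    (hv : v ∈ LinearMap.ker (D.Theta.map S.ψ).mulVecLin) (hv0 : v ≠ 0) {p0 : D.G}
    (hp0 : S.P p0 ≠ 0) : S.I v p0 / S.P p0 ≠ 0 := by
  intro h0
  apply hv0
  apply S.I_injective
  intro p
  rw [S.I_eq_of_mem_ker hv hp0 p, h0, zero_mul, S.I_zero]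

/-- elements of the Hom-kernel space give kernel vectors -/
theorem exists_mem_ker {h : E} (hh : h ∈ S.HK) :
    ∃ v ∈ LinearMap.ker (D.Theta.map S.ψ).mulVecLin, ∀ p, S.I v p = h * S.P p := by
  have h1 : ∀ p, ∃ a : Fin D.b2 → L, alpxComb (fun q => S.ev2 (D.β' q)) a = h * S.P p :=
    fun p => S.exists_I_eq (hh p)
  choose a ha using h1
  refine ⟨fun c => a c.1 c.2, ?_, ha⟩
  rw [S.mem_ker_theta_iff]
  intro p p'
  have e1 : S.I (fun c => a c.1 c.2) p = h * S.P p := ha p
  have e2 : S.I (fun c => a c.1 c.2) p' = h * S.P p' := ha p'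
  rw [e1, e2]
  ring

/-- lower bound for the kernel -/
theorem one_le_finrank_ker {h : E} (hh : h ∈ S.HK) (h0 : h ≠ 0) {p0 : D.G} (hp0 : S.P p0 ≠ 0) :
    1 ≤ Module.finrank L (LinearMap.ker (D.Theta.map S.ψ).mulVecLin) := by
  obtain ⟨v, hv, hvI⟩ := S.exists_mem_ker hh
  have hv0 : v ≠ 0 := by
    rintro rfl
    have := hvI p0
    rw [S.I_zero] at this
    exact mul_ne_zero h0 hp0 this.symm
  rw [Nat.succ_le_iff, Module.finrank_pos_iff_exists_ne_zero]
  exact ⟨⟨v, hv⟩, fun h => hv0 (congrArg Subtype.val h)⟩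

/-- proportionality on the kernel -/
theorem eq_smul_of_HK_eq {v v0 : D.G × Fin D.b2 → L}
    (hv : v ∈ LinearMap.ker (D.Theta.map S.ψ).mulVecLin)
    (hv0 : v0 ∈ LinearMap.ker (D.Theta.map S.ψ).mulVecLin) {p0 : D.G} (hp0 : S.P p0 ≠ 0) (l : L)
    (h : S.I v p0 / S.P p0 = l • (S.I v0 p0 / S.P p0)) : v = l • v0 := by
  apply S.I_injective
  intro p
  rw [S.I_smul, S.I_eq_of_mem_ker hv hp0 p, S.I_eq_of_mem_ker hv0 hp0 p, h, smul_mul_assoc]

/-- upper bound for the kernel -/
theorem finrank_ker_le_one (hU : ∀ h1 ∈ S.HK, ∀ h2 ∈ S.HK, h1 ≠ 0 → ∃ l : L, h2 = l • h1)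
    {p0 : D.G} (hp0 : S.P p0 ≠ 0) :
    Module.finrank L (LinearMap.ker (D.Theta.map S.ψ).mulVecLin) ≤ 1 := by
  by_cases hbot : ∀ v ∈ LinearMap.ker (D.Theta.map S.ψ).mulVecLin, v = 0
  · have : LinearMap.ker (D.Theta.map S.ψ).mulVecLin = ⊥ := by
      rw [eq_bot_iff]
      intro v hv
      rw [Submodule.mem_bot]
      exact hbot v hv
    rw [this, finrank_bot]
    exact Nat.zero_le _
  · push Not at hbot
    obtain ⟨v0, hv0, hv0ne⟩ := hbot
    apply finrank_le_one (⟨v0, hv0⟩ : LinearMap.ker (D.Theta.map S.ψ).mulVecLin)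
    rintro ⟨v, hv⟩
    obtain ⟨l, hl⟩ := hU _ (S.div_mem_HK hv0 hp0) _ (S.div_mem_HK hv hp0)
      (S.div_ne_zero hv0 hv0ne hp0)
    refine ⟨l, ?_⟩
    apply Subtype.ext
    exact (S.eq_smul_of_HK_eq hv hv0 hp0 l hl).symm

/-- if the kernel is a line, the Hom-kernel space is a line -/
theorem HK_eq_smul_of_finrank_ker
    (h1 : Module.finrank L (LinearMap.ker (D.Theta.map S.ψ).mulVecLin) = 1)
    {v0 : D.G × Fin D.b2 → L} (hv0 : v0 ∈ LinearMap.ker (D.Theta.map S.ψ).mulVecLin)
    (hv0ne : v0 ≠ 0) {p0 : D.G} (hp0 : S.P p0 ≠ 0) {h : E} (hh : h ∈ S.HK) :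
    ∃ l : L, h = l • (S.I v0 p0 / S.P p0) := by
  obtain ⟨v, hv, hvI⟩ := S.exists_mem_ker hh
  have hne : (⟨v0, hv0⟩ : LinearMap.ker (D.Theta.map S.ψ).mulVecLin) ≠ 0 := fun h =>
    hv0ne (congrArg Subtype.val h)
  obtain ⟨l, hl⟩ := (finrank_eq_one_iff_of_nonzero' _ hne).mp h1 ⟨v, hv⟩
  have hl' : v = l • v0 := (congrArg Subtype.val hl).symm
  refine ⟨l, ?_⟩
  have e1 := hvI p0
  rw [hl', S.I_smul] at e1
  rw [← smul_div_assoc, e1, mul_div_assoc, div_self hp0, mul_one]

end AlpxSp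

end Fermat.Agent.Alpha
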